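import Mathlib.RingTheory.AdicCompletion.Completeness
import Mathlib.RingTheory.AdicCompletion.LocalRing
import Mathlib.RingTheory.MvPowerSeries.Equiv
import Mathlib.RingTheory.Noetherian.Basic
import Mathlib.RingTheory.LocalRing.ResidueField.Basic

/-!
# The limit of a tower of truncated quotients of a power series ring

A compatible family of surjections `f n : 𝒪⟦X⟧ → A n` killing `(X)ⁿ`, with transition kernels
inside the image of `(X)ⁿ`, has as limit the complete noetherian local ring `𝒪⟦X⟧ ⧸ ⋂ ker (f n)`.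
-/

set_option autoImplicit false

noncomputable section

namespace Fermat.Agent.Deformation

open IsLocalRing

section PowerSeries

variable (σ : Type*) (𝒪 : Type*) [CommRing 𝒪]

/-- The ideal of power series without constant term. -/
abbrev varsIdeal : Ideal (MvPowerSeries σ 𝒪) := Ideal.span (Set.range MvPowerSeries.X)

variable {σ 𝒪}

theorem coe_mem_varsIdeal_pow {a : MvPolynomial σ 𝒪} {n : ℕ}
    (ha : a ∈ MvPolynomial.idealOfVars σ 𝒪 ^ n) :
    (a : MvPowerSeries σ 𝒪) ∈ varsIdeal σ 𝒪 ^ n := by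
  have h : (MvPolynomial.idealOfVars σ 𝒪).map MvPolynomial.coeToMvPowerSeries.ringHom ≤
      varsIdeal σ 𝒪 := by
    rw [Ideal.map_span, Ideal.span_le]
    rintro _ ⟨_, ⟨i, rfl⟩, rfl⟩
    exact Ideal.subset_span ⟨i, (MvPolynomial.coe_X i).symm⟩
  have h' := Ideal.mem_map_of_mem MvPolynomial.coeToMvPowerSeries.ringHom ha
  rw [Ideal.map_pow] at h'
  exact Ideal.pow_right_mono h n h'

variable [Finite σ]

/-- A power series agrees with its truncation modulo the corresponding power of the variables. -/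
theorem sub_truncTotal_mem (p : MvPowerSeries σ 𝒪) (n : ℕ) :
    p - (MvPowerSeries.truncTotal n p : MvPowerSeries σ 𝒪) ∈ varsIdeal σ 𝒪 ^ n := by
  let e := MvPowerSeries.toAdicCompletionAlgEquiv σ 𝒪
  set q : MvPowerSeries σ 𝒪 := p - (MvPowerSeries.truncTotal n p : MvPowerSeries σ 𝒪)
  have hker : e q ∈ (AdicCompletion.eval (MvPolynomial.idealOfVars σ 𝒪)
      (MvPolynomial σ 𝒪) n).ker := by
    simp [q, e, MvPowerSeries.toAdicCompletion_coe,
      sub_eq_zero]
    rfl
  rw [← AdicCompletion.pow_smul_top_eq_ker_eval (MvPolynomial.idealOfVars_fg σ 𝒪)] at hker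
  rw [← e.symm_apply_apply q]
  refine Submodule.smul_induction_on (p := fun z => e.symm z ∈ varsIdeal σ 𝒪 ^ n) hker ?_ ?_
  · intro a ha z _
    rw [map_smul, Algebra.smul_def]
    refine Ideal.mul_mem_right _ _ ?_
    rw [MvPowerSeries.algebraMap_apply', Algebra.algebraMap_self, MvPowerSeries.map_id]
    simpa using coe_mem_varsIdeal_pow ha
  · intro x y hx hy
    rw [map_add]
    exact add_mem hx hy

/-- A power series is congruent to its constant coefficient modulo the variables. -/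
theorem sub_algebraMap_constantCoeff_mem (p : MvPowerSeries σ 𝒪) :
    p - algebraMap 𝒪 (MvPowerSeries σ 𝒪) (MvPowerSeries.constantCoeff p) ∈ varsIdeal σ 𝒪 := by
  have h := sub_truncTotal_mem p 1
  rw [pow_one] at h
  have ht : MvPowerSeries.truncTotal 1 p = MvPolynomial.C (MvPowerSeries.constantCoeff p) := by
    classical
    refine MvPolynomial.ext _ _ fun m => ?_
    rw [MvPowerSeries.coeff_truncTotal_eq_ite, MvPolynomial.coeff_C]
    by_cases hm : m = 0
    · subst hm; simp
    · have : m.degree ≠ 0 := fun hd => hm ((Finsupp.degree_eq_zero_iff m).mp hd)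
      rw [if_neg (by omega), if_neg (fun e => hm e.symm)]
  rw [ht, MvPolynomial.coe_C] at h
  simpa [MvPowerSeries.algebraMap_apply] using h

/-- Evaluation of power series at elements generating an ideal whose `n`-th power is zero. -/
def evalTrunc {A : Type*} [CommRing A] [Algebra 𝒪 A] (x : σ → A) (n : ℕ)
    (hx : Ideal.span (Set.range x) ^ n = ⊥) : MvPowerSeries σ 𝒪 →ₐ[𝒪] A :=
  (Ideal.Quotient.liftₐ (MvPolynomial.idealOfVars σ 𝒪 ^ n) (MvPolynomial.aeval x) (by
    intro a ha
    have h := Ideal.mem_map_of_mem (MvPolynomial.aeval x).toRingHom ha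
    rw [Ideal.map_pow, Ideal.map_span, ← Set.range_comp] at h
    have hcomp : ((MvPolynomial.aeval (R := 𝒪) x).toRingHom ∘ MvPolynomial.X : σ → A) = x :=
      funext fun i => MvPolynomial.aeval_X x i
    rw [hcomp, hx] at h
    exact h)).comp ((MvPowerSeries.truncTotalAlgHom σ 𝒪 n).restrictScalars 𝒪)

theorem evalTrunc_apply {A : Type*} [CommRing A] [Algebra 𝒪 A] (x : σ → A) (n : ℕ)
    (hx : Ideal.span (Set.range x) ^ n = ⊥) (p : MvPowerSeries σ 𝒪) :
    evalTrunc (𝒪 := 𝒪) x n hx p = MvPolynomial.aeval x (MvPowerSeries.truncTotal n p) := rfl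

theorem evalTrunc_coe {A : Type*} [CommRing A] [Algebra 𝒪 A] (x : σ → A) (n : ℕ)
    (hx : Ideal.span (Set.range x) ^ n = ⊥) (q : MvPolynomial σ 𝒪) :
    evalTrunc (𝒪 := 𝒪) x n hx (q : MvPowerSeries σ 𝒪) = MvPolynomial.aeval x q := by
  rw [evalTrunc_apply, ← sub_eq_zero, ← map_sub]
  have hmem : MvPowerSeries.truncTotal n (q : MvPowerSeries σ 𝒪) - q ∈
      MvPolynomial.idealOfVars σ 𝒪 ^ n := by
    refine (MvPolynomial.mem_pow_idealOfVars_iff' ..).mpr fun m hm => ?_
    rw [MvPolynomial.coeff_sub, MvPowerSeries.coeff_truncTotal _ hm, MvPolynomial.coeff_coe,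
      sub_self]
  have h := Ideal.mem_map_of_mem (MvPolynomial.aeval x).toRingHom hmem
  rw [Ideal.map_pow, Ideal.map_span, ← Set.range_comp] at h
  have hcomp : ((MvPolynomial.aeval (R := 𝒪) x).toRingHom ∘ MvPolynomial.X : σ → A) = x :=
    funext fun i => MvPolynomial.aeval_X x i
  rw [hcomp, hx] at h
  exact h

theorem evalTrunc_X {A : Type*} [CommRing A] [Algebra 𝒪 A] (x : σ → A) (n : ℕ)
    (hx : Ideal.span (Set.range x) ^ n = ⊥) (i : σ) :
    evalTrunc (𝒪 := 𝒪) x n hx (MvPowerSeries.X i) = x i := by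
  rw [← MvPolynomial.coe_X, evalTrunc_coe, MvPolynomial.aeval_X]

omit [Finite σ] in
/-- A homomorphism maps the power of the variable ideal to the power of the span of the values. -/
theorem map_varsIdeal_pow {A : Type*} [CommRing A] [Algebra 𝒪 A]
    (g : MvPowerSeries σ 𝒪 →ₐ[𝒪] A) (n : ℕ) :
    (varsIdeal σ 𝒪 ^ n).map g =
      Ideal.span (Set.range fun i => g (MvPowerSeries.X i)) ^ n := by
  rw [Ideal.map_pow, Ideal.map_span, ← Set.range_comp]
  rfl

theorem evalTrunc_pow_le_ker {A : Type*} [CommRing A] [Algebra 𝒪 A] (x : σ → A) (n : ℕ)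
    (hx : Ideal.span (Set.range x) ^ n = ⊥) :
    varsIdeal σ 𝒪 ^ n ≤ RingHom.ker (evalTrunc (𝒪 := 𝒪) x n hx) := by
  rw [← Ideal.map_eq_bot_iff_le_ker, map_varsIdeal_pow]
  simpa only [evalTrunc_X] using hx

theorem evalTrunc_surjective {A : Type*} [CommRing A] [Algebra 𝒪 A] (x : σ → A) (n : ℕ)
    (hx : Ideal.span (Set.range x) ^ n = ⊥) (hgen : Algebra.adjoin 𝒪 (Set.range x) = ⊤) :
    Function.Surjective (evalTrunc (𝒪 := 𝒪) x n hx) := by
  rw [← AlgHom.range_eq_top, eq_top_iff, ← hgen, Algebra.adjoin_le_iff]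
  rintro _ ⟨i, rfl⟩
  exact ⟨MvPowerSeries.X i, evalTrunc_X x n hx i⟩

/-- Homomorphisms killing a power of the variable ideal are determined by the variables. -/
theorem algHom_ext_of_pow_le_ker {A : Type*} [CommRing A] [Algebra 𝒪 A]
    {g g' : MvPowerSeries σ 𝒪 →ₐ[𝒪] A} (n : ℕ) (hg : varsIdeal σ 𝒪 ^ n ≤ RingHom.ker g)
    (hg' : varsIdeal σ 𝒪 ^ n ≤ RingHom.ker g')
    (h : ∀ i, g (MvPowerSeries.X i) = g' (MvPowerSeries.X i)) : g = g' := by
  refine AlgHom.ext fun p => ?_
  have h1 := RingHom.mem_ker.mp (hg (sub_truncTotal_mem p n))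
  have h2 := RingHom.mem_ker.mp (hg' (sub_truncTotal_mem p n))
  rw [map_sub, sub_eq_zero] at h1 h2
  have hpoly : g.comp (MvPolynomial.coeToMvPowerSeries.algHom 𝒪) =
      g'.comp (MvPolynomial.coeToMvPowerSeries.algHom 𝒪) :=
    MvPolynomial.algHom_ext fun i => by
      simpa [MvPolynomial.coeToMvPowerSeries.algHom_apply] using h i
  rw [h1, h2]
  simpa [MvPolynomial.coeToMvPowerSeries.algHom_apply] using
    AlgHom.congr_fun hpoly (MvPowerSeries.truncTotal n p)

end PowerSeries

/-- A tower of truncated quotients of `𝒪⟦X⟧`. -/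
structure Tower (σ : Type) (𝒪 : Type) [CommRing 𝒪] (A : ℕ → Type) [∀ n, CommRing (A n)]
    [∀ n, Algebra 𝒪 (A n)] where
  f : ∀ n, MvPowerSeries σ 𝒪 →ₐ[𝒪] A n
  trans : ∀ n, A (n + 1) →ₐ[𝒪] A n
  f_surjective : ∀ n, Function.Surjective (f n)
  pow_le_ker : ∀ n, varsIdeal σ 𝒪 ^ n ≤ RingHom.ker (f n)
  trans_comp : ∀ n, (trans n).comp (f (n + 1)) = f n
  ker_trans : ∀ n, RingHom.ker (trans n) ≤ (varsIdeal σ 𝒪 ^ n).map (f (n + 1))
  isMaximal : (RingHom.ker (f 1)).IsMaximal

namespace Tower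

variable {σ 𝒪 : Type} [CommRing 𝒪] {A : ℕ → Type} [∀ n, CommRing (A n)]
  [∀ n, Algebra 𝒪 (A n)] (T : Tower σ 𝒪 A)

/-- The intersection of all kernels. -/
def K : Ideal (MvPowerSeries σ 𝒪) := ⨅ n, RingHom.ker (T.f n)

/-- The limit ring. -/
abbrev R : Type := MvPowerSeries σ 𝒪 ⧸ T.K

/-- The projections of the limit ring. -/
def π (n : ℕ) : T.R →ₐ[𝒪] A n :=
  Ideal.Quotient.liftₐ T.K (T.f n) (fun _ ha => RingHom.mem_ker.mp ((iInf_le (fun n => RingHom.ker (T.f n)) n) ha))

@[simp] theorem π_mk (n : ℕ) (s : MvPowerSeries σ 𝒪) :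
    T.π n (Ideal.Quotient.mk T.K s) = T.f n s := rfl

theorem π_surjective (n : ℕ) : Function.Surjective (T.π n) := fun a =>
  ⟨Ideal.Quotient.mk T.K (T.f_surjective n a).choose, (T.f_surjective n a).choose_spec⟩

theorem trans_apply_f (n : ℕ) (s : MvPowerSeries σ 𝒪) : T.trans n (T.f (n + 1) s) = T.f n s :=
  AlgHom.congr_fun (T.trans_comp n) s

theorem trans_comp_π (n : ℕ) : (T.trans n).comp (T.π (n + 1)) = T.π n :=
  AlgHom.ext fun r => by
    obtain ⟨s, rfl⟩ := Ideal.Quotient.mk_surjective r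
    exact T.trans_apply_f n s

theorem ker_succ_le (n : ℕ) : RingHom.ker (T.f (n + 1)) ≤ RingHom.ker (T.f n) := by
  intro s hs
  rw [RingHom.mem_ker] at hs ⊢
  rw [← T.trans_apply_f, hs, map_zero]

theorem ker_antitone : Antitone fun n => RingHom.ker (T.f n) :=
  antitone_nat_of_succ_le T.ker_succ_le

theorem exists_next (n : ℕ) {s : MvPowerSeries σ 𝒪} (hs : s ∈ RingHom.ker (T.f n)) :
    ∃ s' ∈ RingHom.ker (T.f (n + 1)), s - s' ∈ varsIdeal σ 𝒪 ^ n := by
  have h : T.f (n + 1) s ∈ (varsIdeal σ 𝒪 ^ n).map (T.f (n + 1)) :=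
    T.ker_trans n (by
      rw [RingHom.mem_ker, T.trans_apply_f]
      exact hs)
  obtain ⟨j, hj, hjeq⟩ := (Ideal.mem_map_iff_of_surjective _ (T.f_surjective _)).mp h
  exact ⟨s - j, by rw [RingHom.mem_ker, map_sub, hjeq, sub_self], by simpa using hj⟩

variable [Finite σ]

/-- Successive approximation: the kernel at level `n` is the intersection of all kernels plus
the `n`-th power of the variable ideal. -/
theorem exists_mem_K (n : ℕ) {s : MvPowerSeries σ 𝒪} (hs : s ∈ RingHom.ker (T.f n)) :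
    ∃ y ∈ T.K, s - y ∈ varsIdeal σ 𝒪 ^ n := by
  choose g hg hg' using fun m (z : RingHom.ker (T.f (n + m))) => T.exists_next (n + m) z.2
  let seq : ∀ m, RingHom.ker (T.f (n + m)) :=
    fun m => Nat.rec (motive := fun m => RingHom.ker (T.f (n + m))) ⟨s, hs⟩
      (fun m z => ⟨g m z, hg m z⟩) m
  let v : ℕ → MvPowerSeries σ 𝒪 := fun m => (seq m).1
  have hv0 : v 0 = s := rfl
  have hstep : ∀ m, v m - v (m + 1) ∈ varsIdeal σ 𝒪 ^ (n + m) := fun m => hg' m (seq m)
  have hdiff : ∀ {k l}, k ≤ l → v k - v l ∈ varsIdeal σ 𝒪 ^ (n + k) := by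
    intro k l h
    induction l, h using Nat.le_induction with
    | base => simp
    | succ l hl ih =>
      rw [← sub_add_sub_cancel (v k) (v l) (v (l + 1))]
      exact add_mem ih (Ideal.pow_le_pow_right (by omega) (hstep l))
  obtain ⟨y, hy⟩ := IsPrecomplete.prec (I := varsIdeal σ 𝒪)
    (M := MvPowerSeries σ 𝒪) inferInstance (f := v) (fun {k l} h => by
      rw [SModEq.sub_mem, smul_eq_mul, Ideal.mul_top]
      exact Ideal.pow_le_pow_right (by omega) (hdiff h))
  have hy' : ∀ k, v k - y ∈ varsIdeal σ 𝒪 ^ (n + k) := by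
    intro k
    have h := hy (n + k)
    rw [SModEq.sub_mem, smul_eq_mul, Ideal.mul_top] at h
    rw [← sub_add_sub_cancel (v k) (v (n + k)) y]
    exact add_mem (hdiff (by omega)) h
  refine ⟨y, ?_, by simpa [hv0] using hy' 0⟩
  rw [K, Submodule.mem_iInf]
  intro k
  have h1 : v k ∈ RingHom.ker (T.f (n + k)) := (seq k).2
  have h2 := T.pow_le_ker (n + k) (hy' k)
  have h3 : y ∈ RingHom.ker (T.f (n + k)) := by simpa using sub_mem h1 h2
  exact T.ker_antitone (by omega : k ≤ n + k) h3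

/-- The image of the variable ideal in the limit ring. -/
def J : Ideal T.R := (varsIdeal σ 𝒪).map (Ideal.Quotient.mk T.K)

theorem ker_π (n : ℕ) : RingHom.ker (T.π n) = T.J ^ n := by
  rw [J, ← Ideal.map_pow]
  refine le_antisymm (fun r hr => ?_) ?_
  · obtain ⟨s, rfl⟩ := Ideal.Quotient.mk_surjective r
    obtain ⟨y, hyK, hy⟩ := T.exists_mem_K n (s := s) hr
    have : Ideal.Quotient.mk T.K s = Ideal.Quotient.mk T.K (s - y) := by
      rw [map_sub, Ideal.Quotient.eq_zero_iff_mem.mpr hyK, sub_zero]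
    rw [this]
    exact Ideal.mem_map_of_mem _ hy
  · rw [Ideal.map_le_iff_le_comap]
    exact fun s hs => T.pow_le_ker n hs

omit [Finite σ] in
theorem eq_of_forall_π_eq {r r' : T.R} (h : ∀ n, T.π n r = T.π n r') : r = r' := by
  obtain ⟨s, rfl⟩ := Ideal.Quotient.mk_surjective r
  obtain ⟨s', rfl⟩ := Ideal.Quotient.mk_surjective r'
  rw [Ideal.Quotient.eq, K, Submodule.mem_iInf]
  intro n
  rw [RingHom.mem_ker, map_sub, sub_eq_zero]
  exact h n

/-- The limit ring is complete. -/
theorem isAdicComplete_J : IsAdicComplete T.J T.R where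
  haus' r hr := T.eq_of_forall_π_eq fun n => by
    have h := hr n
    rw [SModEq.zero, smul_eq_mul, Ideal.mul_top, ← T.ker_π] at h
    rw [map_zero]
    exact h
  prec' v hv := by
    have hstep : ∀ k, v (k + 1) - v k ∈ (varsIdeal σ 𝒪 ^ k).map (Ideal.Quotient.mk T.K) := by
      intro k
      have h := hv (Nat.le_add_right k 1)
      rw [SModEq.sub_mem, smul_eq_mul, Ideal.mul_top, J, ← Ideal.map_pow] at h
      rw [← neg_sub]
      exact neg_mem h
    choose d hd hd' using fun k =>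
      (Ideal.mem_map_iff_of_surjective _ Ideal.Quotient.mk_surjective).mp (hstep k)
    obtain ⟨s₀, hs₀⟩ := Ideal.Quotient.mk_surjective (v 0)
    let w : ℕ → MvPowerSeries σ 𝒪 := fun k => s₀ + ∑ i ∈ Finset.range k, d i
    have hw : ∀ k, Ideal.Quotient.mk T.K (w k) = v k := by
      intro k
      induction k with
      | zero => simp [w, hs₀]
      | succ k ih =>
        have : w (k + 1) = w k + d k := by simp [w, Finset.sum_range_succ, add_assoc]
        rw [this, map_add, ih, hd', add_sub_cancel]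
    have hwdiff : ∀ {k l}, k ≤ l → w l - w k ∈ varsIdeal σ 𝒪 ^ k := by
      intro k l h
      induction l, h using Nat.le_induction with
      | base => simp
      | succ l hl ih =>
        have : w (l + 1) - w k = (w l - w k) + d l := by
          simp [w, Finset.sum_range_succ]; ring
        rw [this]
        exact add_mem ih (Ideal.pow_le_pow_right hl (hd l))
    obtain ⟨y, hy⟩ := IsPrecomplete.prec (I := varsIdeal σ 𝒪)
      (M := MvPowerSeries σ 𝒪) inferInstance (f := w) (fun {k l} h => by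
        rw [SModEq.sub_mem, smul_eq_mul, Ideal.mul_top, ← neg_sub]
        exact neg_mem (hwdiff h))
    refine ⟨Ideal.Quotient.mk T.K y, fun k => ?_⟩
    have h := hy k
    rw [SModEq.sub_mem, smul_eq_mul, Ideal.mul_top] at h ⊢
    rw [← hw k, ← map_sub, J, ← Ideal.map_pow]
    exact Ideal.mem_map_of_mem _ h

theorem isMaximal_J : T.J.IsMaximal := by
  have h : RingHom.ker (T.π 1) = T.J := (T.ker_π 1).trans (pow_one T.J)
  rw [← h]
  have := T.isMaximal
  have h1 : RingHom.ker (T.π 1) = (RingHom.ker (T.f 1)).map (Ideal.Quotient.mk T.K) := by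
    ext r
    obtain ⟨s, rfl⟩ := Ideal.Quotient.mk_surjective r
    rw [Ideal.mem_quotient_iff_mem (show T.K ≤ RingHom.ker (T.f 1) from iInf_le _ 1)]
    rfl
  rw [h1]
  exact Ideal.IsMaximal.map_of_surjective_of_ker_le Ideal.Quotient.mk_surjective
    (by rw [Ideal.mk_ker]; exact iInf_le _ 1)

instance isLocalRing : IsLocalRing T.R :=
  have := T.isMaximal_J
  have := T.isAdicComplete_J
  isLocalRing_of_isAdicComplete_maximal T.J

theorem maximalIdeal_eq : maximalIdeal T.R = T.J :=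
  (IsLocalRing.eq_maximalIdeal T.isMaximal_J).symm

instance isAdicComplete : IsAdicComplete (maximalIdeal T.R) T.R := by
  rw [T.maximalIdeal_eq]
  exact T.isAdicComplete_J

instance isNoetherianRing [IsNoetherianRing 𝒪] : IsNoetherianRing T.R :=
  isNoetherianRing_of_surjective _ _ (Ideal.Quotient.mk T.K) Ideal.Quotient.mk_surjective

theorem ker_π_eq_maximalIdeal_pow (n : ℕ) :
    RingHom.ker (T.π n) = maximalIdeal T.R ^ n := by
  rw [T.maximalIdeal_eq, T.ker_π]

theorem residue_surjective :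
    Function.Surjective (residue T.R ∘ algebraMap 𝒪 T.R) := by
  intro z
  obtain ⟨r, rfl⟩ := IsLocalRing.residue_surjective z
  obtain ⟨s, rfl⟩ := Ideal.Quotient.mk_surjective r
  refine ⟨MvPowerSeries.constantCoeff s, ?_⟩
  rw [Function.comp_apply, eq_comm, ← sub_eq_zero, ← map_sub, residue_eq_zero_iff,
    T.maximalIdeal_eq]
  exact Ideal.mem_map_of_mem _ (sub_algebraMap_constantCoeff_mem s)

instance isLocalHom [IsLocalRing 𝒪] : IsLocalHom (algebraMap 𝒪 T.R) := by
  refine ⟨fun c hc => ?_⟩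
  by_contra hcu
  have hmax : ((maximalIdeal T.R).comap (algebraMap 𝒪 T.R)).IsMaximal := by
    have hker : RingHom.ker ((residue T.R).comp (algebraMap 𝒪 T.R)) =
        (maximalIdeal T.R).comap (algebraMap 𝒪 T.R) := by
      rw [← RingHom.comap_ker, ker_residue]
    rw [← hker]
    exact RingHom.ker_isMaximal_of_surjective _ T.residue_surjective
  have hmem : algebraMap 𝒪 T.R c ∈ maximalIdeal T.R := by
    have : c ∈ maximalIdeal 𝒪 := (IsLocalRing.mem_maximalIdeal c).mpr hcu
    rw [← IsLocalRing.eq_maximalIdeal hmax] at this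
    exact this
  exact (IsLocalRing.mem_maximalIdeal _).mp hmem hc

/-- Compatible families lift uniquely to the limit ring. -/
theorem existsUnique_π (a : ∀ n, A n) (ha : ∀ n, T.trans n (a (n + 1)) = a n) :
    ∃! r : T.R, ∀ n, T.π n r = a n := by
  choose g hg using fun n => T.π_surjective n (a n)
  have hdown : ∀ {k l}, k ≤ l → T.π k (g l) = a k := by
    intro k l h
    induction h using Nat.decreasingInduction with
    | self => exact hg l
    | of_succ j hj ih => rw [← T.trans_comp_π j, AlgHom.comp_apply, ih, ha j]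
  obtain ⟨r, hr⟩ := IsPrecomplete.prec (I := T.J) (M := T.R)
    T.isAdicComplete_J.toIsPrecomplete (f := g) (fun {k l} h => by
      rw [SModEq.sub_mem, smul_eq_mul, Ideal.mul_top, ← T.ker_π, RingHom.mem_ker, map_sub,
        hdown (le_refl k), hdown h, sub_self])
  refine ⟨r, fun n => ?_, fun r' hr' => T.eq_of_forall_π_eq fun n => ?_⟩
  · have h := hr n
    rw [SModEq.sub_mem, smul_eq_mul, Ideal.mul_top, ← T.ker_π, RingHom.mem_ker, map_sub,
      sub_eq_zero] at h
    rw [← h, hg n]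
  · have h := hr n
    rw [SModEq.sub_mem, smul_eq_mul, Ideal.mul_top, ← T.ker_π, RingHom.mem_ker, map_sub,
      sub_eq_zero] at h
    rw [hr' n, ← h, hg n]

/-- Continuous homomorphisms out of the limit ring are determined by the variables. -/
theorem algHom_ext {B : Type} [CommRing B] [Algebra 𝒪 B] (I : Ideal B) [IsHausdorff I B]
    {φ ψ : T.R →ₐ[𝒪] B} (hφ : T.J.map φ ≤ I) (hψ : T.J.map ψ ≤ I)
    (h : ∀ i, φ (Ideal.Quotient.mk T.K (MvPowerSeries.X i)) =
      ψ (Ideal.Quotient.mk T.K (MvPowerSeries.X i))) : φ = ψ := by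
  refine AlgHom.ext fun r => sub_eq_zero.mp (IsHausdorff.haus' (I := I) (M := B) _ fun n => ?_)
  obtain ⟨s, rfl⟩ := Ideal.Quotient.mk_surjective r
  rw [SModEq.zero, smul_eq_mul, Ideal.mul_top, ← Ideal.Quotient.mk_eq_mk_iff_sub_mem]
  have hle : ∀ {χ : T.R →ₐ[𝒪] B}, T.J.map χ ≤ I →
      varsIdeal σ 𝒪 ^ n ≤ RingHom.ker ((Ideal.Quotient.mkₐ 𝒪 (I ^ n)).comp
        (χ.comp (Ideal.Quotient.mkₐ 𝒪 T.K))) := by
    intro χ hχ z hz
    rw [RingHom.mem_ker]
    refine Ideal.Quotient.eq_zero_iff_mem.mpr (Ideal.pow_right_mono hχ n ?_)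
    rw [← Ideal.map_pow]
    refine Ideal.mem_map_of_mem χ ?_
    rw [J, ← Ideal.map_pow]
    exact Ideal.mem_map_of_mem _ hz
  exact AlgHom.congr_fun (algHom_ext_of_pow_le_ker n (hle hφ) (hle hψ)
    fun i => congrArg (Ideal.Quotient.mk (I ^ n)) (h i)) s

end Tower

end Fermat.Agent.Deformation
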