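import Mathlib.RingTheory.Henselian
import Mathlib.RingTheory.Artinian.Ring
import Mathlib.RingTheory.LocalRing.ResidueField.Basic
import Mathlib.RingTheory.Nakayama
import Mathlib.RingTheory.SimpleModule.Basic
import Mathlib.FieldTheory.IsAlgClosed.Basic
import Mathlib.LinearAlgebra.Eigenspace.Triangularizable
import Mathlib.LinearAlgebra.Matrix.ToLin
import Fermat.Prelude.Def_GaloisRep_Residual

/-!
# Schur's lemma for lifts of absolutely irreducible two dimensional representations

* The image of an absolutely irreducible representation spans the full matrix algebra, and so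
  does the image of any lift to a local ring; hence its centraliser consists of scalars.
* Normalised lifts: after fixing combinations `x`, `y` of group elements which map to `E₁₁` and
  `E₁₂` residually, every lift to a henselian local ring has a unique normalised conjugate.
-/

set_option autoImplicit false

noncomputable section

namespace Fermat.Agent.Deformation

open IsLocalRing

/-- Two by two matrices. -/
abbrev Mat2 (A : Type*) := Matrix (Fin 2) (Fin 2) A

section Burnside

/-- Burnside: a monoid acting irreducibly on a finite-dimensional vector space over an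
algebraically closed field spans all endomorphisms. -/
theorem span_range_eq_top_of_irreducible {K V G : Type*} [Field K] [IsAlgClosed K]
    [AddCommGroup V] [Module K V] [FiniteDimensional K V] [Nontrivial V] [Monoid G]
    (ρ : G →* Module.End K V)
    (hirr : ∀ W : Submodule K V, (∀ g, ∀ x ∈ W, ρ g x ∈ W) → W = ⊥ ∨ W = ⊤) :
    Submodule.span K (Set.range ρ) = ⊤ := by
  classical
  let S : Subalgebra K (Module.End K V) := Algebra.adjoin K (Set.range ρ)
  have hS : S.toSubmodule = Submodule.span K (Set.range ρ) := by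
    have hclos : Submonoid.closure (Set.range ρ) = MonoidHom.mrange ρ := by
      rw [← MonoidHom.coe_mrange, Submonoid.closure_eq]
    rw [Algebra.adjoin_eq_span, hclos, MonoidHom.coe_mrange]
  have hmem : ∀ g, ρ g ∈ S := fun g => Algebra.subset_adjoin ⟨g, rfl⟩
  have : IsSimpleModule S V :=
    { eq_bot_or_eq_top := fun W => by
        have h := hirr (W.restrictScalars K)
          (fun g x hx => W.smul_mem (⟨ρ g, hmem g⟩ : S) hx)
        simpa using h }
  have hscalar : ∀ φ : Module.End S V, ∃ a : K, ∀ v, φ v = a • v := by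
    intro φ
    obtain ⟨a, ha⟩ := Module.End.exists_eigenvalue (φ.restrictScalars K)
    refine ⟨a, ?_⟩
    have hinv : ∀ g, ∀ x ∈ Module.End.eigenspace (φ.restrictScalars K) a,
        ρ g x ∈ Module.End.eigenspace (φ.restrictScalars K) a := by
      intro g x hx
      rw [Module.End.mem_eigenspace_iff, LinearMap.restrictScalars_apply] at hx ⊢
      have h := φ.map_smul (⟨ρ g, hmem g⟩ : S) x
      rw [hx] at h
      exact h.trans ((ρ g).map_smul a x)
    have htop := (hirr _ hinv).resolve_left ha
    intro v
    have hv : v ∈ Module.End.eigenspace (φ.restrictScalars K) a := htop ▸ Submodule.mem_top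
    exact Module.End.mem_eigenspace_iff.mp hv
  rw [← hS, eq_top_iff]
  intro f _
  let F : Module.End (Module.End S V) V :=
    { toFun := f
      map_add' := f.map_add
      map_smul' := fun φ v => by
        obtain ⟨a, ha⟩ := hscalar φ
        change f (φ v) = φ (f v)
        rw [ha, ha, map_smul] }
  let b := Module.finBasis K V
  obtain ⟨r, hr⟩ := jacobson_density F (Finset.univ.image b)
  have hf : f = r.1 := b.ext fun i => hr (b i) (Finset.mem_image_of_mem b (Finset.mem_univ i))
  rw [hf]
  exact r.2

/-- Spanning the matrix algebra descends along field extensions. -/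
theorem span_eq_top_of_map_span_eq_top {k K n : Type*} [Field k] [Field K] [Fintype n]
    [DecidableEq n] (f : k →+* K) (S : Set (Matrix n n k))
    (h : Submodule.span K ((fun M => M.map f) '' S) = ⊤) :
    Submodule.span k S = ⊤ := by
  by_contra hne
  obtain ⟨φ, hφ0, hφ⟩ := Submodule.exists_le_ker_of_lt_top _ (lt_top_iff_ne_top.mpr hne)
  apply hφ0
  let ψ : Matrix n n K →ₗ[K] K :=
    { toFun := fun M => ∑ i, ∑ j, M i j * f (φ (Matrix.single i j 1))
      map_add' := fun M N => by simp only [Matrix.add_apply, add_mul, Finset.sum_add_distrib]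
      map_smul' := fun c M => by
        simp only [Matrix.smul_apply, smul_eq_mul, mul_assoc, Finset.mul_sum,
          RingHom.id_apply] }
  have hψ : ∀ M : Matrix n n k, ψ (M.map f) = f (φ M) := by
    intro M
    conv_rhs => rw [Matrix.matrix_eq_sum_single M]
    simp only [map_sum]
    refine Finset.sum_congr rfl fun i _ => Finset.sum_congr rfl fun j _ => ?_
    have : Matrix.single i j (M i j) = M i j • Matrix.single i j (1 : k) := by
      rw [Matrix.smul_single, smul_eq_mul, mul_one]
    rw [this, map_smul, smul_eq_mul, map_mul, Matrix.map_apply]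
  have hker : Submodule.span K ((fun M => M.map f) '' S) ≤ LinearMap.ker ψ := by
    rw [Submodule.span_le]
    rintro _ ⟨M, hM, rfl⟩
    simp only [SetLike.mem_coe, LinearMap.mem_ker, hψ]
    rw [LinearMap.mem_ker.mp (hφ (Submodule.subset_span hM)), map_zero]
  rw [h] at hker
  refine LinearMap.ext fun M => f.injective ?_
  rw [LinearMap.zero_apply, map_zero, ← hψ]
  exact LinearMap.mem_ker.mp (hker Submodule.mem_top)

/-- The matrix representation attached to a residual representation and a basis. -/
def residualMatrix {k : Type} [Field k] (ρbar : ResidualGaloisRep k)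
    (b : Module.Basis (Fin 2) k ρbar.V) :
    (AlgebraicClosure ℚ ≃ₐ[ℚ] AlgebraicClosure ℚ) →* Mat2 k :=
  ((LinearMap.toMatrixAlgEquiv b).toRingEquiv.toRingHom.toMonoidHom).comp ρbar.ρ

theorem residualMatrix_apply {k : Type} [Field k] (ρbar : ResidualGaloisRep k)
    (b : Module.Basis (Fin 2) k ρbar.V) (g : AlgebraicClosure ℚ ≃ₐ[ℚ] AlgebraicClosure ℚ) :
    residualMatrix ρbar b g = LinearMap.toMatrix b b (ρbar.ρ g) := rfl

/-- The image of an absolutely irreducible residual representation spans `M₂(k)`. -/
theorem span_residualMatrix_eq_top {k : Type} [Field k] {ρbar : ResidualGaloisRep k}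
    (habs : ρbar.IsAbsolutelyIrreducible) (b : Module.Basis (Fin 2) k ρbar.V) :
    Submodule.span k (Set.range (residualMatrix ρbar b)) = ⊤ := by
  let K := AlgebraicClosure k
  let ρK := ρbar.baseChange K
  have : Nontrivial ρK.V := Module.nontrivial_of_finrank_eq_succ ρK.finrank_eq
  have h := span_range_eq_top_of_irreducible (K := K) ρK.ρ habs
  refine span_eq_top_of_map_span_eq_top (algebraMap k K) _ ?_
  let e := (LinearMap.toMatrix (Algebra.TensorProduct.basis K b)
    (Algebra.TensorProduct.basis K b)).toLinearMap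
  have he : (fun M : Mat2 k => M.map (algebraMap k K)) '' Set.range (residualMatrix ρbar b)
      = e '' Set.range ρK.ρ := by
    rw [← Set.range_comp, ← Set.range_comp]
    exact congrArg Set.range (funext fun g =>
      (LinearMap.toMatrix_baseChange K (ρbar.ρ g) b b).symm)
  rw [he, ← Submodule.map_span, h, Submodule.map_top, LinearMap.range_eq_top]
  exact (LinearMap.toMatrix _ _).surjective

/-- The image of an absolutely irreducible residual representation spans all endomorphisms. -/
theorem span_range_eq_top {k : Type} [Field k] {ρbar : ResidualGaloisRep k}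
    (habs : ρbar.IsAbsolutelyIrreducible) :
    Submodule.span k (Set.range ρbar.ρ) = ⊤ := by
  let b := Module.finBasisOfFinrankEq k ρbar.V ρbar.finrank_eq
  have h := span_residualMatrix_eq_top habs b
  have hr : Set.range (residualMatrix ρbar b) = LinearMap.toMatrix b b '' Set.range ρbar.ρ := by
    rw [← Set.range_comp]; rfl
  rw [hr] at h
  have h' : (Submodule.span k (Set.range ρbar.ρ)).map (LinearMap.toMatrix b b).toLinearMap = ⊤ := by
    rw [Submodule.map_span]; exact h
  exact (Submodule.map_injective_of_injective (LinearMap.toMatrix b b).injective)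
    (h'.trans (by rw [Submodule.map_top, LinearEquiv.range]))

end Burnside

section Centraliser

/-- If the image spans the matrix algebra, its centraliser consists of scalars. -/
theorem exists_scalar_of_commute {A ι n : Type*} [CommRing A] [Fintype n] [DecidableEq n]
    {r : ι → Matrix n n A} (hspan : Submodule.span A (Set.range r) = ⊤)
    {M : Matrix n n A} (hM : ∀ g, Commute M (r g)) : ∃ a : A, M = Matrix.scalar n a := by
  have hall : ∀ N : Matrix n n A, Commute M N := by
    intro N
    have hN : N ∈ Submodule.span A (Set.range r) := hspan ▸ Submodule.mem_top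
    induction hN using Submodule.span_induction with
    | mem x hx => obtain ⟨g, rfl⟩ := hx; exact hM g
    | zero => exact Commute.zero_right M
    | add x y _ _ hx hy => exact hx.add_right hy
    | smul c x _ hx => exact hx.smul_right c
  obtain ⟨a, ha⟩ := Matrix.mem_range_scalar_of_commute_single (M := M)
    (fun i j _ => (hall _).symm)
  exact ⟨a, ha.symm⟩

end Centraliser

section Basics

variable {G : Type*} [Monoid G] {𝒪 : Type*} [CommRing 𝒪]
variable {A : Type*} [CommRing A] [Algebra 𝒪 A]

/-- Apply a ring homomorphism to all entries of a matrix representation. -/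
def mapRep {B : Type*} [CommRing B] (f : A →+* B) (r : G →* Mat2 A) : G →* Mat2 B :=
  f.mapMatrix.toMonoidHom.comp r

@[simp] theorem mapRep_apply {B : Type*} [CommRing B] (f : A →+* B) (r : G →* Mat2 A) (g : G) :
    mapRep f r g = (r g).map f := rfl

/-- Conjugate a matrix representation. -/
def conjRep (u : (Mat2 A)ˣ) (r : G →* Mat2 A) : G →* Mat2 A where
  toFun g := (u : Mat2 A) * r g * ((u⁻¹ : (Mat2 A)ˣ) : Mat2 A)
  map_one' := by simp
  map_mul' g h := by simp [mul_assoc]

@[simp] theorem conjRep_apply (u : (Mat2 A)ˣ) (r : G →* Mat2 A) (g : G) :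
    conjRep u r g = (u : Mat2 A) * r g * ((u⁻¹ : (Mat2 A)ˣ) : Mat2 A) := rfl

theorem conjRep_conjRep (u v : (Mat2 A)ˣ) (r : G →* Mat2 A) :
    conjRep u (conjRep v r) = conjRep (u * v) r :=
  MonoidHom.ext fun g => by simp [mul_assoc]

/-- An `𝒪`-linear combination of values of a representation. -/
def comb (x : G →₀ 𝒪) (r : G →* Mat2 A) : Mat2 A :=
  x.sum fun g c => algebraMap 𝒪 A c • r g

theorem comb_conjRep (x : G →₀ 𝒪) (u : (Mat2 A)ˣ) (r : G →* Mat2 A) :
    comb x (conjRep u r) = (u : Mat2 A) * comb x r * ((u⁻¹ : (Mat2 A)ˣ) : Mat2 A) := by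
  simp only [comb, Finsupp.sum, conjRep_apply, Finset.mul_sum, Finset.sum_mul,
    mul_smul_comm, smul_mul_assoc]

theorem comb_mapRep {B : Type*} [CommRing B] [Algebra 𝒪 B] (x : G →₀ 𝒪) (f : A →ₐ[𝒪] B)
    (r : G →* Mat2 A) : comb x (mapRep (f : A →+* B) r) = (comb x r).map f := by
  ext i j
  simp [comb, Finsupp.sum, Matrix.sum_apply, map_sum]

/-- Normalised representations with respect to a pair of combinations. -/
structure IsNormalised (x y : G →₀ 𝒪) (r : G →* Mat2 A) : Prop where
  x01 : comb x r 0 1 = 0
  x10 : comb x r 1 0 = 0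
  y01 : comb y r 0 1 = 1

theorem IsNormalised.map {B : Type*} [CommRing B] [Algebra 𝒪 B] {x y : G →₀ 𝒪}
    {r : G →* Mat2 A} (h : IsNormalised x y r) (f : A →ₐ[𝒪] B) :
    IsNormalised x y (mapRep (f : A →+* B) r) where
  x01 := by simp [comb_mapRep, h.x01]
  x10 := by simp [comb_mapRep, h.x10]
  y01 := by simp [comb_mapRep, h.y01]

theorem IsNormalised.of_map {B : Type*} [CommRing B] [Algebra 𝒪 B] {x y : G →₀ 𝒪}
    {r : G →* Mat2 A} (f : A →ₐ[𝒪] B) (hf : Function.Injective f)
    (h : IsNormalised x y (mapRep (f : A →+* B) r)) : IsNormalised x y r where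
  x01 := hf (by simpa [comb_mapRep] using h.x01)
  x10 := hf (by simpa [comb_mapRep] using h.x10)
  y01 := hf (by simpa [comb_mapRep] using h.y01)

end Basics

section Residual

variable {G : Type*} [Monoid G] {𝒪 : Type*} [CommRing 𝒪] [IsLocalRing 𝒪]
variable {A : Type*} [CommRing A] [IsLocalRing A] [Algebra 𝒪 A] [IsLocalHom (algebraMap 𝒪 A)]

/-- `r` reduces to `rbar` modulo the maximal ideal. -/
def IsLift (rbar : G →* Mat2 (ResidueField 𝒪)) (r : G →* Mat2 A) : Prop :=
  ∀ g, (r g).map (residue A) = (rbar g).map (ResidueField.map (algebraMap 𝒪 A))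

/-- The residual value of an `𝒪`-linear combination. -/
def residueComb (x : G →₀ 𝒪) (rbar : G →* Mat2 (ResidueField 𝒪)) : Mat2 (ResidueField 𝒪) :=
  x.sum fun g c => residue 𝒪 c • rbar g

/-- The residual value is the value of `comb` over the residue field. -/
theorem residueComb_eq_comb (x : G →₀ 𝒪) (rbar : G →* Mat2 (ResidueField 𝒪)) :
    residueComb x rbar = comb x rbar := rfl

/-- `x` and `y` reduce to `E₁₁` and `E₁₂`. -/
structure IsNormPair (x y : G →₀ 𝒪) (rbar : G →* Mat2 (ResidueField 𝒪)) : Prop where
  x_eq : residueComb x rbar = Matrix.single 0 0 1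
  y_eq : residueComb y rbar = Matrix.single 0 1 1

theorem exists_residueComb_eq {rbar : G →* Mat2 (ResidueField 𝒪)}
    (hspan : Submodule.span (ResidueField 𝒪) (Set.range rbar) = ⊤)
    (M : Mat2 (ResidueField 𝒪)) : ∃ x : G →₀ 𝒪, residueComb x rbar = M := by
  have hM : M ∈ Submodule.span (ResidueField 𝒪) (Set.range rbar) := hspan ▸ Submodule.mem_top
  obtain ⟨c, hc⟩ := Finsupp.mem_span_range_iff_exists_finsupp.mp hM
  obtain ⟨x, rfl⟩ := Finsupp.mapRange_surjective (residue 𝒪) (map_zero _) residue_surjective c
  exact ⟨x, by rw [residueComb, ← hc, Finsupp.sum_mapRange_index]; simp⟩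

theorem exists_isNormPair {rbar : G →* Mat2 (ResidueField 𝒪)}
    (hspan : Submodule.span (ResidueField 𝒪) (Set.range rbar) = ⊤) :
    ∃ x y : G →₀ 𝒪, IsNormPair x y rbar := by
  obtain ⟨x, hx⟩ := exists_residueComb_eq hspan (Matrix.single 0 0 1)
  obtain ⟨y, hy⟩ := exists_residueComb_eq hspan (Matrix.single 0 1 1)
  exact ⟨x, y, hx, hy⟩

theorem map_residue_comb {rbar : G →* Mat2 (ResidueField 𝒪)} {r : G →* Mat2 A}
    (h : IsLift rbar r) (x : G →₀ 𝒪) :
    (comb x r).map (residue A) =
      (residueComb x rbar).map (ResidueField.map (algebraMap 𝒪 A)) := by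
  ext i j
  simp only [comb, residueComb, Finsupp.sum, Matrix.map_apply, Matrix.sum_apply, map_sum,
    Matrix.smul_apply, smul_eq_mul, map_mul, ResidueField.map_residue]
  refine Finset.sum_congr rfl fun g _ => ?_
  have hg := congrFun (congrFun (h g) i) j
  rw [Matrix.map_apply, Matrix.map_apply] at hg
  rw [hg]

theorem map_residue_comb_x {rbar : G →* Mat2 (ResidueField 𝒪)} {r : G →* Mat2 A}
    (h : IsLift rbar r) {x y : G →₀ 𝒪} (hp : IsNormPair x y rbar) (i j : Fin 2) :
    residue A (comb x r i j) = if 0 = i ∧ 0 = j then 1 else 0 := by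
  have := congrFun (congrFun (map_residue_comb h x) i) j
  rw [hp.x_eq, Matrix.map_apply, Matrix.map_apply, Matrix.single_apply] at this
  rw [this]; split <;> simp

theorem map_residue_comb_y {rbar : G →* Mat2 (ResidueField 𝒪)} {r : G →* Mat2 A}
    (h : IsLift rbar r) {x y : G →₀ 𝒪} (hp : IsNormPair x y rbar) (i j : Fin 2) :
    residue A (comb y r i j) = if 0 = i ∧ 1 = j then 1 else 0 := by
  have := congrFun (congrFun (map_residue_comb h y) i) j
  rw [hp.y_eq, Matrix.map_apply, Matrix.map_apply, Matrix.single_apply] at this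
  rw [this]; split <;> simp

/-- Conjugation by a unit which is the identity modulo the maximal ideal preserves lifts. -/
theorem IsLift.conjRep {rbar : G →* Mat2 (ResidueField 𝒪)} {r : G →* Mat2 A}
    (h : IsLift rbar r) {u : (Mat2 A)ˣ} (hu : (u : Mat2 A).map (residue A) = 1) :
    IsLift rbar (conjRep u r) := by
  intro g
  have hinv : ((u⁻¹ : (Mat2 A)ˣ) : Mat2 A).map (residue A) = 1 := by
    have h1 := congrArg (fun M : Mat2 A => M.map (residue A)) u.mul_inv
    simpa only [Matrix.map_mul, hu, one_mul, Matrix.map_one _ (map_zero _) (map_one _)] using h1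
  rw [conjRep_apply, Matrix.map_mul, Matrix.map_mul, hu, hinv, one_mul, mul_one, h g]

/-- A residual conjugation lifts to a conjugation over the local ring. -/
theorem exists_conj_isLift {rbar : G →* Mat2 (ResidueField 𝒪)} {r : G →* Mat2 A}
    (u : (Mat2 (ResidueField A))ˣ)
    (h : ∀ g, (u : Mat2 (ResidueField A)) * (r g).map (residue A) =
      (rbar g).map (ResidueField.map (algebraMap 𝒪 A)) * (u : Mat2 (ResidueField A))) :
    ∃ v : (Mat2 A)ˣ, IsLift rbar (Deformation.conjRep v r) := by
  obtain ⟨M, hM⟩ : ∃ M : Mat2 A, M.map (residue A) = (u : Mat2 (ResidueField A)) :=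
    ⟨(u : Mat2 (ResidueField A)).map (Function.surjInv residue_surjective), by
      ext i j; simp [Function.surjInv_eq residue_surjective]⟩
  have hMu : IsUnit M := by
    rw [Matrix.isUnit_iff_isUnit_det]
    refine isUnit_of_map_unit (residue A) _ ?_
    rw [RingHom.map_det, RingHom.mapMatrix_apply, hM]
    exact (Matrix.isUnit_iff_isUnit_det _).mp u.isUnit
  refine ⟨hMu.unit, fun g => ?_⟩
  have hinv : (u : Mat2 (ResidueField A)) *
      ((hMu.unit⁻¹ : (Mat2 A)ˣ) : Mat2 A).map (residue A) = 1 := by
    rw [← hM, ← Matrix.map_mul, IsUnit.mul_val_inv]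
    simp
  simp only [conjRep_apply, IsUnit.unit_spec, Matrix.map_mul, hM]
  rw [h g, mul_assoc, hinv, mul_one]

/-- Residue fields of `A` and `𝒪` agree when the composite `𝒪 → k_A` is onto. -/
theorem residueField_map_bijective
    (hsurj : Function.Surjective (residue A ∘ algebraMap 𝒪 A)) :
    Function.Bijective (ResidueField.map (algebraMap 𝒪 A)) := by
  refine ⟨RingHom.injective _, fun z => ?_⟩
  obtain ⟨c, rfl⟩ := hsurj z
  exact ⟨residue 𝒪 c, ResidueField.map_residue _ _⟩

/-- The image of any lift spans the matrix algebra. -/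
theorem span_range_eq_top_of_isLift
    (hsurj : Function.Surjective (residue A ∘ algebraMap 𝒪 A))
    {rbar : G →* Mat2 (ResidueField 𝒪)}
    (hspan : Submodule.span (ResidueField 𝒪) (Set.range rbar) = ⊤)
    {r : G →* Mat2 A} (h : IsLift rbar r) :
    Submodule.span A (Set.range r) = ⊤ := by
  classical
  rw [eq_top_iff]
  refine Submodule.le_of_le_smul_of_le_jacobson_bot (I := maximalIdeal A)
    Module.Finite.fg_top (maximalIdeal_le_jacobson _) ?_
  intro M _
  obtain ⟨N, hN⟩ : ∃ N : Mat2 (ResidueField 𝒪),
      N.map (ResidueField.map (algebraMap 𝒪 A)) = M.map (residue A) :=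
    ⟨(M.map (residue A)).map (Function.surjInv (residueField_map_bijective hsurj).2), by
      ext i j; simp [Function.surjInv_eq (residueField_map_bijective hsurj).2]⟩
  obtain ⟨x, rfl⟩ := exists_residueComb_eq hspan N
  rw [← map_residue_comb h] at hN
  refine Submodule.mem_sup.mpr ⟨comb x r, ?_, M - comb x r, ?_, add_sub_cancel _ _⟩
  · exact Submodule.sum_mem _ fun g _ => Submodule.smul_mem _ _ (Submodule.subset_span ⟨g, rfl⟩)
  · rw [Matrix.matrix_eq_sum_single (M - comb x r)]
    refine Submodule.sum_mem _ fun i _ => Submodule.sum_mem _ fun j _ => ?_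
    rw [← mul_one ((M - comb x r) i j), ← smul_eq_mul, ← Matrix.smul_single]
    refine Submodule.smul_mem_smul ?_ Submodule.mem_top
    rw [← residue_eq_zero_iff, Matrix.sub_apply, map_sub, sub_eq_zero]
    exact (congrFun (congrFun hN i) j).symm

/-- Schur's lemma for lifts: the centraliser consists of scalars. -/
theorem exists_scalar_of_isLift
    (hsurj : Function.Surjective (residue A ∘ algebraMap 𝒪 A))
    {rbar : G →* Mat2 (ResidueField 𝒪)}
    (hspan : Submodule.span (ResidueField 𝒪) (Set.range rbar) = ⊤)
    {r : G →* Mat2 A} (h : IsLift rbar r) {M : Mat2 A} (hM : ∀ g, Commute M (r g)) :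
    ∃ a : A, M = Matrix.scalar (Fin 2) a :=
  exists_scalar_of_commute (span_range_eq_top_of_isLift hsurj hspan h) hM

/-- Conjugate normalised lifts are equal. -/
theorem IsNormalised.eq_of_conjRep {rbar : G →* Mat2 (ResidueField 𝒪)} {x y : G →₀ 𝒪}
    (hp : IsNormPair x y rbar) {r r' : G →* Mat2 A} (hr : IsLift rbar r) (hr' : IsLift rbar r')
    (h : IsNormalised x y r) (h' : IsNormalised x y r') {u : (Mat2 A)ˣ}
    (hu : Deformation.conjRep u r = r') : r = r' := by
  have hc : ∀ z : G →₀ 𝒪, (u : Mat2 A) * comb z r = comb z r' * (u : Mat2 A) := by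
    intro z
    rw [← hu, comb_conjRep, mul_assoc, Units.inv_mul, mul_one]
  have hentry : ∀ (z : G →₀ 𝒪) (i j : Fin 2),
      (u : Mat2 A) i 0 * comb z r 0 j + (u : Mat2 A) i 1 * comb z r 1 j =
        comb z r' i 0 * (u : Mat2 A) 0 j + comb z r' i 1 * (u : Mat2 A) 1 j := by
    intro z i j
    have := congrFun (congrFun (hc z) i) j
    simpa [Matrix.mul_apply, Fin.sum_univ_two] using this
  have hunit : ∀ {s s' : G →* Mat2 A}, IsLift rbar s → IsLift rbar s' →
      IsUnit (comb x s 0 0 - comb x s' 1 1) := by
    intro s s' hs hs'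
    refine isUnit_of_map_unit (residue A) _ ?_
    simp [map_residue_comb_x hs hp, map_residue_comb_x hs' hp]
  have e01 : (u : Mat2 A) 0 1 = 0 := by
    have e := hentry x 0 1
    rw [h.x01, h'.x01] at e
    refine (hunit hr' hr).mul_right_eq_zero.mp ?_
    linear_combination -e
  have e10 : (u : Mat2 A) 1 0 = 0 := by
    have e := hentry x 1 0
    rw [h.x10, h'.x10] at e
    refine (hunit hr hr').mul_right_eq_zero.mp ?_
    linear_combination e
  have e00 : (u : Mat2 A) 0 0 = (u : Mat2 A) 1 1 := by
    have e := hentry y 0 1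
    rw [h.y01, h'.y01, e01] at e
    linear_combination e
  have hscal : (u : Mat2 A) = Matrix.scalar (Fin 2) ((u : Mat2 A) 0 0) := by
    ext i j
    fin_cases i <;> fin_cases j <;> simp [e01, e10, e00]
  rw [← hu]
  refine MonoidHom.ext fun g => ?_
  rw [conjRep_apply]
  have hcomm : (u : Mat2 A) * r g = r g * (u : Mat2 A) := by
    rw [hscal]; exact Matrix.scalar_commute _ (fun r' => Commute.all _ _) _
  rw [hcomm, Units.mul_inv_cancel_right]

/-- Every lift to a henselian local ring has a normalised conjugate, by a matrix congruent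
to the identity. -/
theorem exists_normalised_conj [HenselianRing A (maximalIdeal A)]
    {rbar : G →* Mat2 (ResidueField 𝒪)} {x y : G →₀ 𝒪}
    (hp : IsNormPair x y rbar) {r : G →* Mat2 A} (hr : IsLift rbar r) :
    ∃ u : (Mat2 A)ˣ, (u : Mat2 A).map (residue A) = 1 ∧
      IsNormalised x y (Deformation.conjRep u r) := by
  have hX := map_residue_comb_x hr hp
  set a := comb x r 0 0 with ha
  set b := comb x r 0 1 with hb
  set c := comb x r 1 0 with hc
  set d := comb x r 1 1 with hd
  have ha1 : residue A a = 1 := by simp [ha, hX]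
  have hb0 : residue A b = 0 := by simp [hb, hX]
  have hc0 : residue A c = 0 := by simp [hc, hX]
  have hd0 : residue A d = 0 := by simp [hd, hX]
  let f : Polynomial A := (Polynomial.X - Polynomial.C a) * (Polynomial.X - Polynomial.C d) -
    Polynomial.C (b * c)
  have hf : f.Monic := by
    refine Polynomial.Monic.sub_of_left
      ((Polynomial.monic_X_sub_C a).mul (Polynomial.monic_X_sub_C d)) ?_
    refine lt_of_le_of_lt Polynomial.degree_C_le ?_
    rw [Polynomial.degree_mul' (by simp), Polynomial.degree_X_sub_C, Polynomial.degree_X_sub_C]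
    decide
  have h1 : f.eval 1 ∈ maximalIdeal A := by
    rw [← residue_eq_zero_iff]; simp [f, ha1, hb0, hc0, hd0]
  have h2 : IsUnit (Ideal.Quotient.mk (maximalIdeal A) (f.derivative.eval 1)) := by
    refine IsUnit.map _ (isUnit_of_map_unit (residue A) _ ?_)
    simp [f, ha1, hd0]
  obtain ⟨lam, hroot, hlam⟩ := HenselianRing.is_henselian f hf 1 h1 h2
  rw [← residue_eq_zero_iff, map_sub, map_one, sub_eq_zero] at hlam
  have hlr : (lam - a) * (lam - d) = b * c := by
    rw [← sub_eq_zero]; simpa [f, Polynomial.IsRoot] using hroot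
  obtain ⟨v, hv⟩ : IsUnit (lam - d) :=
    isUnit_of_map_unit (residue A) _ (by simp [hlam, hd0])
  let p : A := b * ↑v⁻¹
  obtain ⟨w, hw⟩ : IsUnit (d - lam) :=
    isUnit_of_map_unit (residue A) _ (by simp [hlam, hd0])
  let q : A := c * ↑w⁻¹
  have hp' : p * (lam - d) = b := by rw [← hv]; simp [p]
  have hq' : q * (d - lam) = c := by rw [← hw]; simp [q]
  have hp0 : residue A p = 0 := by simp [p, hb0]
  have hq0 : residue A q = 0 := by simp [q, hc0]
  have ea : a + p * c = lam :=
    v.isUnit.mul_left_inj.mp (by rw [hv]; linear_combination c * hp' - hlr)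
  have eb : q * b + d = a + d - lam :=
    w.isUnit.mul_left_inj.mp (by rw [hw]; linear_combination b * hq' - hlr)
  let U : Mat2 A := !![1, p; q, 1]
  have hUres : U.map (residue A) = 1 := by
    ext i j; fin_cases i <;> fin_cases j <;> simp [U, hp0, hq0]
  have hU : IsUnit U := by
    rw [Matrix.isUnit_iff_isUnit_det]
    refine isUnit_of_map_unit (residue A) _ ?_
    rw [RingHom.map_det, RingHom.mapMatrix_apply, hUres]; simp
  have hUX : U * comb x r = !![lam, 0; 0, a + d - lam] * U := by
    ext i j
    fin_cases i <;> fin_cases j <;>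
      simp [U, Matrix.mul_apply, Fin.sum_univ_two, ← ha, ← hb, ← hc, ← hd]
    · exact ea
    · linear_combination -hp'
    · linear_combination -hq'
    · exact eb
  have hDiag : comb x (Deformation.conjRep hU.unit r) = !![lam, 0; 0, a + d - lam] := by
    rw [comb_conjRep, IsUnit.unit_spec, hUX, mul_assoc, IsUnit.mul_val_inv, mul_one]
  have hr₁ : IsLift rbar (Deformation.conjRep hU.unit r) := hr.conjRep (by simpa using hUres)
  generalize hr₁eq : Deformation.conjRep hU.unit r = r₁ at hDiag hr₁
  obtain ⟨t, ht⟩ : IsUnit (comb y r₁ 0 1) :=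
    isUnit_of_map_unit (residue A) _ (by simp [map_residue_comb_y hr₁ hp])
  let s : (Mat2 A)ˣ :=
    ⟨!![1, 0; 0, (t : A)], !![1, 0; 0, (↑t⁻¹ : A)],
      by ext i j; fin_cases i <;> fin_cases j <;> simp [Matrix.mul_apply, Fin.sum_univ_two],
      by ext i j; fin_cases i <;> fin_cases j <;> simp [Matrix.mul_apply, Fin.sum_univ_two]⟩
  have hsres : (s : Mat2 A).map (residue A) = 1 := by
    have ht1 : residue A (t : A) = 1 := by rw [ht, map_residue_comb_y hr₁ hp]; simp
    ext i j; fin_cases i <;> fin_cases j <;> simp [s, ht1]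
  refine ⟨s * hU.unit, ?_, ?_⟩
  · rw [Units.val_mul, Matrix.map_mul, hsres, one_mul]; simpa using hUres
  · rw [← conjRep_conjRep, hr₁eq]
    constructor <;>
      simp [comb_conjRep, hDiag, s, Matrix.mul_apply, Matrix.vecMul, dotProduct, Fin.sum_univ_two,
        ht]

/-- Every lift has a normalised conjugate which is again a lift. -/
theorem exists_normalised [HenselianRing A (maximalIdeal A)]
    {rbar : G →* Mat2 (ResidueField 𝒪)} {x y : G →₀ 𝒪}
    (hp : IsNormPair x y rbar) {r : G →* Mat2 A} (hr : IsLift rbar r) :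
    ∃ u : (Mat2 A)ˣ, IsLift rbar (Deformation.conjRep u r) ∧
      IsNormalised x y (Deformation.conjRep u r) :=
  let ⟨u, hu, hn⟩ := exists_normalised_conj hp hr
  ⟨u, hr.conjRep hu, hn⟩

/-- Normalised lifts intertwined by a unit are equal. -/
theorem IsNormalised.eq_of_conj {rbar : G →* Mat2 (ResidueField 𝒪)} {x y : G →₀ 𝒪}
    (hp : IsNormPair x y rbar) {r r' : G →* Mat2 A} (hr : IsLift rbar r) (hr' : IsLift rbar r')
    (h : IsNormalised x y r) (h' : IsNormalised x y r') {u : (Mat2 A)ˣ}
    (hu : ∀ g, (u : Mat2 A) * r g = r' g * (u : Mat2 A)) : r = r' :=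
  h.eq_of_conjRep hp hr hr' h' (u := u) (MonoidHom.ext fun g => by
    rw [conjRep_apply, hu g, Units.mul_inv_cancel_right])

/-- Existence and uniqueness of normalised conjugates. -/
theorem existsUnique_normalised [HenselianRing A (maximalIdeal A)]
    {rbar : G →* Mat2 (ResidueField 𝒪)} {x y : G →₀ 𝒪}
    (hp : IsNormPair x y rbar) {r : G →* Mat2 A} (hr : IsLift rbar r) :
    ∃! r' : G →* Mat2 A,
      IsLift rbar r' ∧ IsNormalised x y r' ∧ ∃ u : (Mat2 A)ˣ, Deformation.conjRep u r = r' := by
  obtain ⟨u, hu, hn⟩ := exists_normalised_conj hp hr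
  refine ⟨_, ⟨hr.conjRep hu, hn, u, rfl⟩, ?_⟩
  rintro r' ⟨hl, hn', v, rfl⟩
  refine IsNormalised.eq_of_conjRep hp hl (hr.conjRep hu) hn' hn (u := u * v⁻¹) ?_
  rw [conjRep_conjRep, inv_mul_cancel_right]

/-- Combinations `x`, `y` exist for an absolutely irreducible residual representation. -/
theorem exists_isNormPair_residualMatrix {𝒪 : Type} [CommRing 𝒪] [IsLocalRing 𝒪]
    {ρbar : ResidualGaloisRep (ResidueField 𝒪)} (habs : ρbar.IsAbsolutelyIrreducible)
    (b : Module.Basis (Fin 2) (ResidueField 𝒪) ρbar.V) :
    ∃ x y : (AlgebraicClosure ℚ ≃ₐ[ℚ] AlgebraicClosure ℚ) →₀ 𝒪,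
      IsNormPair x y (residualMatrix ρbar b) :=
  exists_isNormPair (span_residualMatrix_eq_top habs b)

end Residual

section Henselian

/-- A nilpotent ideal makes a ring complete. -/
theorem isAdicComplete_of_pow_eq_bot {A : Type*} [CommRing A] {I : Ideal A} {n : ℕ}
    (h : I ^ n = ⊥) : IsAdicComplete I A where
  haus' x hx := by
    have := hx n
    rwa [h, Submodule.bot_smul, SModEq.bot] at this
  prec' f hf := by
    refine ⟨f n, fun m => ?_⟩
    rcases le_total m n with hmn | hnm
    · exact hf hmn
    · have := hf hnm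
      rw [h, Submodule.bot_smul, SModEq.bot] at this
      rw [this]

/-- An artinian local ring is henselian at its maximal ideal. -/
theorem henselianRing_of_isArtinianRing (A : Type*) [CommRing A] [IsLocalRing A]
    [IsArtinianRing A] : HenselianRing A (maximalIdeal A) := by
  obtain ⟨n, hn⟩ := IsArtinianRing.isNilpotent_jacobson_bot (R := A)
  rw [jacobson_eq_maximalIdeal ⊥ bot_ne_top] at hn
  have := isAdicComplete_of_pow_eq_bot (I := maximalIdeal A) hn
  infer_instance

/-- An artinian local ring is a henselian local ring. -/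
theorem henselianLocalRing_of_isArtinianRing (A : Type*) [CommRing A] [IsLocalRing A]
    [IsArtinianRing A] : HenselianLocalRing A where
  is_henselian f hf a₀ h₁ h₂ :=
    (henselianRing_of_isArtinianRing A).is_henselian f hf a₀ h₁ (h₂.map _)

/-- A complete local ring is a henselian local ring. -/
theorem henselianLocalRing_of_isAdicComplete (A : Type*) [CommRing A] [IsLocalRing A]
    [IsAdicComplete (maximalIdeal A) A] : HenselianLocalRing A where
  is_henselian f hf a₀ h₁ h₂ :=
    HenselianRing.is_henselian (I := maximalIdeal A) f hf a₀ h₁ (h₂.map _)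

end Henselian

end Fermat.Agent.Deformation
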