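import Fermat.Prelude.Def_GaloisRep_Adic
import Mathlib.LinearAlgebra.Matrix.ToLin
import Mathlib.LinearAlgebra.Determinant
import Mathlib.RingTheory.TensorProduct.Free
import Mathlib.RingTheory.LocalRing.ResidueField.Basic
import Fermat.Agent.Deformation.Schur

/-!
Dictionary between `GaloisRepAdic A` and matrix valued homomorphisms
`Γ →* Matrix (Fin 2) (Fin 2) A`.
-/

set_option autoImplicit false

noncomputable section

open scoped TensorProduct
open IsLocalRing Module

namespace Fermat.Agent.Deformation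

/-- The absolute Galois group of `ℚ`. -/
abbrev Γ : Type := AlgebraicClosure ℚ ≃ₐ[ℚ] AlgebraicClosure ℚ

/-- Two by two matrices. -/
abbrev Mat (A : Type) : Type := Matrix (Fin 2) (Fin 2) A

section General

variable {A : Type} [CommRing A] {V W : Type} [AddCommGroup V] [Module A V]
  [AddCommGroup W] [Module A W]

/-- The matrix homomorphism of a representation in a basis. -/
def matOf (ρ : Γ →* Module.End A V) (b : Basis (Fin 2) A V) : Γ →* Mat A :=
  ((LinearMap.toMatrixAlgEquiv b : Module.End A V ≃ₐ[A] Mat A) :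
    Module.End A V →* Mat A).comp ρ

theorem matOf_apply (ρ : Γ →* Module.End A V) (b : Basis (Fin 2) A V) (σ : Γ) :
    matOf ρ b σ = LinearMap.toMatrix b b (ρ σ) := rfl

/-- Equal matrices in two bases give an intertwining linear equivalence. -/
theorem exists_equiv_of_matOf_eq (ρ : Γ →* Module.End A V) (ρ' : Γ →* Module.End A W)
    (b : Basis (Fin 2) A V) (b' : Basis (Fin 2) A W) (h : matOf ρ b = matOf ρ' b') :
    ∃ e : V ≃ₗ[A] W, ∀ σ x, e (ρ σ x) = ρ' σ (e x) := by
  refine ⟨b.equiv b' (Equiv.refl _), fun σ x => ?_⟩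
  have h2 : (b.equiv b' (Equiv.refl _)).toLinearMap.comp (ρ σ) =
      (ρ' σ).comp (b.equiv b' (Equiv.refl _)).toLinearMap := by
    refine b.ext fun i => ?_
    refine b'.ext_elem fun j => ?_
    have := congrFun (congrFun (DFunLike.congr_fun h σ) j) i
    rw [matOf_apply, matOf_apply, LinearMap.toMatrix_apply, LinearMap.toMatrix_apply] at this
    simpa [Basis.equiv] using this
  exact LinearMap.congr_fun h2 x

/-- An intertwining equivalence transports matrices. -/
theorem matOf_map_equiv (ρ : Γ →* Module.End A V) (ρ' : Γ →* Module.End A W)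
    (b : Basis (Fin 2) A V) (e : V ≃ₗ[A] W) (he : ∀ σ x, e (ρ σ x) = ρ' σ (e x)) :
    matOf ρ' (b.map e) = matOf ρ b := by
  refine MonoidHom.ext fun σ => Matrix.ext fun i j => ?_
  rw [matOf_apply, matOf_apply, LinearMap.toMatrix_apply, LinearMap.toMatrix_apply]
  simp [← he]

/-- Change of basis conjugates by an invertible matrix. -/
theorem exists_conj_of_basis (ρ : Γ →* Module.End A V) (b b' : Basis (Fin 2) A V) :
    ∃ u : (Mat A)ˣ, ∀ σ, (u : Mat A) * matOf ρ b σ = matOf ρ b' σ * u := by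
  refine ⟨⟨b'.toMatrix b, b.toMatrix b', b'.toMatrix_mul_toMatrix_flip b,
    b.toMatrix_mul_toMatrix_flip b'⟩, fun σ => ?_⟩
  show b'.toMatrix b * LinearMap.toMatrix b b (ρ σ) =
    LinearMap.toMatrix b' b' (ρ σ) * b'.toMatrix b
  rw [basis_toMatrix_mul_linearMap_toMatrix, linearMap_toMatrix_mul_basis_toMatrix]

/-- Extension of scalars maps matrices entrywise. -/
theorem matOf_baseChange (B : Type) [CommRing B] [Algebra A B]
    (ρ : Γ →* Module.End A V) (b : Basis (Fin 2) A V)
    (ρ' : Γ →* Module.End B (B ⊗[A] V)) (h : ∀ σ, ρ' σ = (ρ σ).baseChange B) (σ : Γ) :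
    matOf ρ' (Algebra.TensorProduct.basis B b) σ = (matOf ρ b σ).map (algebraMap A B) := by
  rw [matOf_apply, matOf_apply, h]
  exact LinearMap.toMatrix_baseChange B _ b b

end General

section Adic

variable {A : Type} [CommRing A] [IsLocalRing A]

/-- Entrywise adic continuity of a matrix representation. -/
def IsCont (r : Γ →* Mat A) : Prop :=
  ∀ n : ℕ, ∃ L : IntermediateField ℚ (AlgebraicClosure ℚ), FiniteDimensional ℚ L ∧
    ∀ σ : Γ, (∀ x ∈ L, σ x = x) → ∀ i j, (r σ - 1) i j ∈ maximalIdeal A ^ n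

theorem IsCont.of_factors (r : Γ →* Mat A) (h : GaloisFactorsThroughFiniteLevel r) :
    IsCont r := by
  intro n
  obtain ⟨L, hL, h1⟩ := h
  refine ⟨L, hL, fun σ hσ i j => ?_⟩
  rw [h1 σ hσ, sub_self]
  exact Submodule.zero_mem _

omit [IsLocalRing A] in
theorem coord_mem_of_mem_smul_top {V : Type} [AddCommGroup V] [Module A V]
    (b : Basis (Fin 2) A V) {I : Ideal A} {v : V} (hv : v ∈ I • (⊤ : Submodule A V))
    (i : Fin 2) : b.repr v i ∈ I := by
  refine Submodule.smul_induction_on (p := fun v => b.repr v i ∈ I) hv ?_ ?_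
  · intro a ha w _
    rw [map_smul, Finsupp.smul_apply, smul_eq_mul]
    exact I.mul_mem_right _ ha
  · intro x y hx hy
    rw [map_add, Finsupp.add_apply]
    exact I.add_mem hx hy

theorem isCont_matOf (ρ : GaloisRepAdic A) (b : Basis (Fin 2) A ρ.V) :
    IsCont (matOf ρ.ρ b) := by
  intro n
  obtain ⟨L, hL, h1⟩ := ρ.isAdicContinuous n
  refine ⟨L, hL, fun σ hσ i j => ?_⟩
  have h2 := coord_mem_of_mem_smul_top b (h1 σ hσ (b j)) i
  rw [matOf_apply, Matrix.sub_apply, LinearMap.toMatrix_apply, Matrix.one_apply]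
  rwa [map_sub, Finsupp.sub_apply, b.repr_self, Finsupp.single_apply,
    if_congr (eq_comm) rfl rfl] at h2

/-- The representation on `A × A` given by a continuous matrix homomorphism. -/
def repOf (r : Γ →* Mat A) (hr : IsCont r) : GaloisRepAdic A :=
  { V := Fin 2 → A
    finrank_eq := by rw [Module.finrank_pi]; rfl
    ρ := ((Matrix.toLinAlgEquiv' : Mat A ≃ₐ[A] Module.End A (Fin 2 → A)) :
      Mat A →* Module.End A (Fin 2 → A)).comp r
    isAdicContinuous := by
      intro n
      obtain ⟨L, hL, h1⟩ := hr n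
      refine ⟨L, hL, fun σ hσ v => ?_⟩
      have hmem : ∀ i, ((r σ - 1).mulVec v) i ∈ maximalIdeal A ^ n := by
        intro i
        rw [Matrix.mulVec, dotProduct]
        exact Ideal.sum_mem _ fun j _ => Ideal.mul_mem_right _ _ (h1 σ hσ i j)
      have hsum : Matrix.toLinAlgEquiv' (r σ) v - v =
          ∑ i, ((r σ - 1).mulVec v) i • (Pi.basisFun A (Fin 2) i) := by
        conv_rhs => rw [show ∑ i, ((r σ - 1).mulVec v) i • (Pi.basisFun A (Fin 2) i) =
          (r σ - 1).mulVec v from (Pi.basisFun A (Fin 2)).sum_repr _]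
        rw [Matrix.sub_mulVec, Matrix.one_mulVec]
        rfl
      show Matrix.toLinAlgEquiv' (r σ) v - v ∈ _
      rw [hsum]
      exact Submodule.sum_mem _ fun i _ => Submodule.smul_mem_smul (hmem i) Submodule.mem_top }

/-- The standard basis of `repOf`. -/
def stdBasis (r : Γ →* Mat A) (hr : IsCont r) : Basis (Fin 2) A (repOf r hr).V :=
  Pi.basisFun A (Fin 2)

theorem matOf_repOf (r : Γ →* Mat A) (hr : IsCont r) :
    matOf (repOf r hr).ρ (stdBasis r hr) = r := by
  refine MonoidHom.ext fun σ => ?_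
  rw [matOf_apply]
  show LinearMap.toMatrix (Pi.basisFun A (Fin 2)) (Pi.basisFun A (Fin 2))
    (Matrix.toLin' (r σ)) = r σ
  rw [← Matrix.toLin_eq_toLin', LinearMap.toMatrix_toLin]

/-- A basis of a rank two representation. -/
def someBasis (ρ : GaloisRepAdic A) : Basis (Fin 2) A ρ.V :=
  (Module.finBasis A ρ.V).reindex (finCongr ρ.finrank_eq)

theorem isEquiv_of_matOf_eq {ρ ρ' : GaloisRepAdic A} (b : Basis (Fin 2) A ρ.V)
    (b' : Basis (Fin 2) A ρ'.V) (h : matOf ρ.ρ b = matOf ρ'.ρ b') : ρ.IsEquiv ρ' := by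
  obtain ⟨e, he⟩ := exists_equiv_of_matOf_eq ρ.ρ ρ'.ρ b b' h
  exact ⟨⟨e, he⟩⟩

theorem isEquiv_repOf (ρ : GaloisRepAdic A) (b : Basis (Fin 2) A ρ.V) {r : Γ →* Mat A}
    (h : matOf ρ.ρ b = r) (hr : IsCont r) : ρ.IsEquiv (repOf r hr) :=
  isEquiv_of_matOf_eq b (stdBasis r hr) (h.trans (matOf_repOf r hr).symm)

/-- Conjugate homomorphisms give equivalent representations. -/
theorem isEquiv_repOf_of_conj {r r' : Γ →* Mat A} (hr : IsCont r) (hr' : IsCont r')
    (u : (Mat A)ˣ) (h : ∀ σ, (u : Mat A) * r σ = r' σ * u) :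
    (repOf r hr).IsEquiv (repOf r' hr') := by
  refine ⟨⟨LinearEquiv.ofLinearMap (Matrix.toLin' (u : Mat A))
    (Matrix.toLin' ((u⁻¹ : (Mat A)ˣ) : Mat A)) ?_ ?_, fun σ x => ?_⟩⟩
  · refine (Matrix.toLin'_mul _ _).symm.trans ?_
    rw [Units.mul_inv, Matrix.toLin'_one]; rfl
  · refine (Matrix.toLin'_mul _ _).symm.trans ?_
    rw [Units.inv_mul, Matrix.toLin'_one]; rfl
  show Matrix.toLin' (u : Mat A) (Matrix.toLin' (r σ) x) =
    Matrix.toLin' (r' σ) (Matrix.toLin' (u : Mat A) x)
  have h2 : (Matrix.toLin' (u : Mat A)).comp (Matrix.toLin' (r σ)) =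
      (Matrix.toLin' (r' σ)).comp (Matrix.toLin' (u : Mat A)) := by
    rw [← Matrix.toLin'_mul, ← Matrix.toLin'_mul, h σ]
  exact LinearMap.congr_fun h2 x

/-- Equivalent representations have conjugate matrices. -/
theorem exists_conj_of_isEquiv {ρ ρ' : GaloisRepAdic A} (h : ρ.IsEquiv ρ')
    (b : Basis (Fin 2) A ρ.V) (b' : Basis (Fin 2) A ρ'.V) :
    ∃ u : (Mat A)ˣ, ∀ σ, (u : Mat A) * matOf ρ.ρ b σ = matOf ρ'.ρ b' σ * u := by
  obtain ⟨e⟩ := h
  obtain ⟨u, hu⟩ := exists_conj_of_basis ρ'.ρ (b.map e.toLinearEquiv) b'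
  exact ⟨u, fun σ => by rw [← hu σ, matOf_map_equiv ρ.ρ ρ'.ρ b e.toLinearEquiv e.map_apply]⟩

variable {B : Type} [CommRing B] [IsLocalRing B]

theorem IsCont.mapRep {r : Γ →* Mat A} (hr : IsCont r) (φ : A →+* B) (hφ : IsLocalHom φ) :
    IsCont (Deformation.mapRep φ r) := by
  intro n
  obtain ⟨L, hL, h1⟩ := hr n
  refine ⟨L, hL, fun σ hσ i j => ?_⟩
  have hle : (maximalIdeal A ^ n).map φ ≤ maximalIdeal B ^ n := by
    rw [Ideal.map_pow]
    exact Ideal.pow_right_mono (Ideal.map_le_iff_le_comap.mpr fun a ha =>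
      Ideal.mem_comap.mpr (haveI := hφ; map_nonunit φ a ha)) n
  have : (Deformation.mapRep φ r σ - 1) i j = φ ((r σ - 1) i j) := by
    by_cases hij : i = j <;> simp [hij, map_sub]
  rw [this]
  exact hle (Ideal.mem_map_of_mem φ (h1 σ hσ i j))

theorem exists_basis_baseChangeAlong (ρ : GaloisRepAdic A) (b : Basis (Fin 2) A ρ.V)
    (φ : A →+* B) (hφ : IsLocalHom φ) :
    ∃ b' : Basis (Fin 2) B (ρ.baseChangeAlong φ hφ).V,
      matOf (ρ.baseChangeAlong φ hφ).ρ b' = mapRep φ (matOf ρ.ρ b) := by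
  let : Algebra A B := φ.toAlgebra
  exact ⟨Algebra.TensorProduct.basis B b, MonoidHom.ext fun σ =>
    matOf_baseChange B ρ.ρ b (ρ.baseChangeAlong φ hφ).ρ (fun _ => rfl) σ⟩

theorem baseChangeAlong_isEquiv_repOf (ρ : GaloisRepAdic A) (b : Basis (Fin 2) A ρ.V)
    (φ : A →+* B) (hφ : IsLocalHom φ) {r : Γ →* Mat B}
    (h : mapRep φ (matOf ρ.ρ b) = r) (hr : IsCont r) :
    (ρ.baseChangeAlong φ hφ).IsEquiv (repOf r hr) := by
  obtain ⟨b', hb'⟩ := exists_basis_baseChangeAlong ρ b φ hφ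
  exact isEquiv_repOf _ b' (hb'.trans h) hr

theorem repOf_baseChangeAlong_isEquiv {r : Γ →* Mat A} (hr : IsCont r) (φ : A →+* B)
    (hφ : IsLocalHom φ) {r' : Γ →* Mat B} (h : mapRep φ r = r') (hr' : IsCont r') :
    ((repOf r hr).baseChangeAlong φ hφ).IsEquiv (repOf r' hr') :=
  baseChangeAlong_isEquiv_repOf _ (stdBasis r hr) φ hφ (by rw [matOf_repOf, h]) hr'

end Adic

section Residual

variable {k : Type} [Field k] {A : Type} [CommRing A] [IsLocalRing A]

theorem residual_isEquiv_of_map_eq (ρbar : ResidualGaloisRep k) (bbar : Basis (Fin 2) k ρbar.V)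
    (ρ : GaloisRepAdic A) (b : Basis (Fin 2) A ρ.V) (ψ : k →+* ResidueField A)
    (h : mapRep (residue A) (matOf ρ.ρ b) = mapRep ψ (matOf ρbar.ρ bbar)) :
    ρ.residual.IsEquiv (ρbar.baseChangeAlong ψ) := by
  let : Algebra k (ResidueField A) := ψ.toAlgebra
  obtain ⟨e, he⟩ := exists_equiv_of_matOf_eq ρ.residual.ρ (ρbar.baseChangeAlong ψ).ρ
    (Algebra.TensorProduct.basis (ResidueField A) b) (Algebra.TensorProduct.basis (ResidueField A) bbar)
    (MonoidHom.ext fun σ =>
      (matOf_baseChange (ResidueField A) ρ.ρ b ρ.residual.ρ (fun _ => rfl) σ).trans <|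
        (DFunLike.congr_fun h σ).trans
          (matOf_baseChange (ResidueField A) ρbar.ρ bbar (ρbar.baseChangeAlong ψ).ρ
            (fun _ => rfl) σ).symm)
  exact ⟨⟨e, he⟩⟩

theorem tmul_surjective (V : Type) [AddCommGroup V] [Module A V] :
    Function.Surjective fun v : V => (1 : ResidueField A) ⊗ₜ[A] v := by
  intro x
  induction x using TensorProduct.induction_on with
  | zero => exact ⟨0, TensorProduct.tmul_zero _ _⟩
  | tmul c v =>
    obtain ⟨a, rfl⟩ := residue_surjective c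
    refine ⟨a • v, ?_⟩
    simp only [← IsLocalRing.ResidueField.algebraMap_eq, TensorProduct.tmul_smul,
      TensorProduct.smul_tmul', Algebra.algebraMap_eq_smul_one]
  | add x y hx hy =>
    obtain ⟨v, rfl⟩ := hx
    obtain ⟨w, rfl⟩ := hy
    exact ⟨v + w, TensorProduct.tmul_add _ _ _⟩

/-- Lifting a residual basis: a basis of `ρ` in which the reduction is the prescribed matrix
representation. -/
theorem exists_lift_basis (ρbar : ResidualGaloisRep k) (bbar : Basis (Fin 2) k ρbar.V)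
    (ρ : GaloisRepAdic A) (ψ : k →+* ResidueField A)
    (h : ρ.residual.IsEquiv (ρbar.baseChangeAlong ψ)) :
    ∃ b : Basis (Fin 2) A ρ.V,
      mapRep (residue A) (matOf ρ.ρ b) = mapRep ψ (matOf ρbar.ρ bbar) := by
  let : Algebra k (ResidueField A) := ψ.toAlgebra
  obtain ⟨e⟩ := h
  have hc := matOf_map_equiv (ρbar.baseChangeAlong ψ).ρ ρ.residual.ρ
    (Algebra.TensorProduct.basis (ResidueField A) bbar) e.symm.toLinearEquiv e.symm.map_apply
  let c : Basis (Fin 2) (ResidueField A) (ResidueField A ⊗[A] ρ.V) :=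
    (Algebra.TensorProduct.basis (ResidueField A) bbar).map e.symm.toLinearEquiv
  choose v hv using fun i => tmul_surjective ρ.V (c i)
  simp only at hv
  let b0 := someBasis ρ
  have hdet : IsUnit (b0.det v) := by
    apply IsLocalRing.notMem_maximalIdeal.mp
    rw [← IsLocalRing.residue_eq_zero_iff, Basis.det_apply, RingHom.map_det]
    have hmat : (residue A).mapMatrix (b0.toMatrix v) =
        (Algebra.TensorProduct.basis (ResidueField A) b0).toMatrix c := by
      refine Matrix.ext fun i j => ?_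
      rw [RingHom.mapMatrix_apply, Matrix.map_apply, Basis.toMatrix_apply, Basis.toMatrix_apply,
        ← hv j, Algebra.TensorProduct.basis_repr_tmul]
      simp
    rw [hmat, ← Basis.det_apply]
    exact ((Algebra.TensorProduct.basis (ResidueField A) b0).isUnit_det c).ne_zero
  obtain ⟨hli, hsp⟩ := (Basis.is_basis_iff_det b0).mpr hdet
  let b : Basis (Fin 2) A ρ.V := Basis.mk hli hsp.ge
  refine ⟨b, MonoidHom.ext fun σ => ?_⟩
  have hbc : Algebra.TensorProduct.basis (ResidueField A) b = c := by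
    refine Basis.eq_of_apply_eq fun i => ?_
    rw [Algebra.TensorProduct.basis_apply, Basis.mk_apply]
    exact hv i
  refine (matOf_baseChange (ResidueField A) ρ.ρ b ρ.residual.ρ (fun _ => rfl) σ).symm.trans ?_
  rw [hbc]
  exact (DFunLike.congr_fun hc σ).trans
    (matOf_baseChange (ResidueField A) ρbar.ρ bbar (ρbar.baseChangeAlong ψ).ρ (fun _ => rfl) σ)

end Residual

end Fermat.Agent.Deformation
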