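import Fermat.Prelude.Def_GaloisRep_DeformationCondition
import Fermat.Agent.Deformation.Matrix
import Fermat.Agent.Deformation.Schur

/-!
The levels of the universal framed deformation: ideals of the polynomial ring in the matrix
entries which are kernels of normalised points of type `𝒟` in finite test algebras.
-/

set_option autoImplicit false

noncomputable section

open IsLocalRing Module GaloisRep

namespace Fermat.Agent.Deformation

/-- The polynomial ring in the matrix entries of a representation of `Γ`. -/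
abbrev FrameRing (𝒪 : Type) [CommRing 𝒪] : Type := MvPolynomial (Γ × Fin 2 × Fin 2) 𝒪

section FrameHom

variable {𝒪 : Type} [CommRing 𝒪] {A B : Type} [CommRing A] [Algebra 𝒪 A] [CommRing B]
  [Algebra 𝒪 B]

/-- Evaluation at the entries of a representation. -/
def frameHom (r : Γ →* Mat A) : FrameRing 𝒪 →ₐ[𝒪] A :=
  MvPolynomial.aeval fun v => r v.1 v.2.1 v.2.2

@[simp] theorem frameHom_X (r : Γ →* Mat A) (σ : Γ) (i j : Fin 2) :
    frameHom (𝒪 := 𝒪) r (MvPolynomial.X (σ, i, j)) = r σ i j :=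
  MvPolynomial.aeval_X _ _

theorem comp_frameHom (φ : A →ₐ[𝒪] B) (r : Γ →* Mat A) :
    φ.comp (frameHom r) = frameHom (mapRep (φ : A →+* B) r) :=
  MvPolynomial.algHom_ext fun v => by simp [frameHom]

theorem mapRep_mapRep {C : Type} [CommRing C] (φ : A →+* B) (ψ : B →+* C) (r : Γ →* Mat A) :
    mapRep ψ (mapRep φ r) = mapRep (ψ.comp φ) r :=
  MonoidHom.ext fun _ => Matrix.ext fun _ _ => rfl

theorem mapRep_eq_of_comp_eq {φ ψ : A →ₐ[𝒪] B} {r : Γ →* Mat A}
    (hsurj : Function.Surjective (frameHom (𝒪 := 𝒪) r))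
    (h : mapRep (φ : A →+* B) r = mapRep (ψ : A →+* B) r) : φ = ψ := by
  refine AlgHom.ext fun a => ?_
  obtain ⟨p, rfl⟩ := hsurj a
  exact DFunLike.congr_fun ((comp_frameHom φ r).trans (h ▸ (comp_frameHom ψ r).symm)) p

/-- Pair of two matrix representations. -/
def pairRep (r : Γ →* Mat A) (s : Γ →* Mat B) : Γ →* Mat (A × B) where
  toFun σ := Matrix.of fun i j => (r σ i j, s σ i j)
  map_one' := by
    ext i j <;> rcases eq_or_ne i j with h | h <;> simp [h, Matrix.one_apply]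
  map_mul' σ τ := by
    ext i j <;> simp [Matrix.mul_apply, Fin.sum_univ_two]

theorem factors_pairRep {r : Γ →* Mat A} {s : Γ →* Mat B}
    (hr : GaloisFactorsThroughFiniteLevel r) (hs : GaloisFactorsThroughFiniteLevel s) :
    GaloisFactorsThroughFiniteLevel (pairRep r s) := by
  obtain ⟨L, hL, h1⟩ := hr
  obtain ⟨K, hK, h2⟩ := hs
  refine ⟨L ⊔ K, inferInstance, fun σ hσ => ?_⟩
  have e1 := h1 σ fun x hx => hσ x (le_sup_left (b := K) hx)
  have e2 := h2 σ fun x hx => hσ x (le_sup_right (a := L) hx)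
  ext i j <;> simp [pairRep, e1, e2, Matrix.one_apply] <;> split <;> simp

theorem factors_mapRep {r : Γ →* Mat A} (hr : GaloisFactorsThroughFiniteLevel r)
    (φ : A →+* B) : GaloisFactorsThroughFiniteLevel (mapRep φ r) := by
  obtain ⟨L, hL, h1⟩ := hr
  exact ⟨L, hL, fun σ hσ => by simp [h1 σ hσ]⟩

theorem factors_of_mapRep {r : Γ →* Mat A} (φ : A →+* B) (hφ : Function.Injective φ)
    (hr : GaloisFactorsThroughFiniteLevel (mapRep φ r)) : GaloisFactorsThroughFiniteLevel r := by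
  obtain ⟨L, hL, h1⟩ := hr
  refine ⟨L, hL, fun σ hσ => ?_⟩
  apply Matrix.map_injective hφ
  simpa using h1 σ hσ

end FrameHom

variable {𝒪 : Type} [CommRing 𝒪] [IsLocalRing 𝒪]
variable {rbar : Γ →* Mat (ResidueField 𝒪)} {x y : Γ →₀ 𝒪}
variable {𝒟 : ∀ ⦃A : Type⦄ [CommRing A] [IsLocalRing A] [Algebra 𝒪 A], GaloisRepAdic A → Prop}

/-- The maximal ideal of the frame ring given by the residual representation. -/
def frameMax (rbar : Γ →* Mat (ResidueField 𝒪)) : Ideal (FrameRing 𝒪) :=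
  RingHom.ker (frameHom (𝒪 := 𝒪) rbar)

/-- A normalised point of type `𝒟` in a finite test algebra. -/
structure IsPoint (rbar : Γ →* Mat (ResidueField 𝒪)) (x y : Γ →₀ 𝒪)
    (𝒟 : ∀ ⦃A : Type⦄ [CommRing A] [IsLocalRing A] [Algebra 𝒪 A], GaloisRepAdic A → Prop)
    (A : Type) [CommRing A] [IsLocalRing A] [Algebra 𝒪 A] (r : Γ →* Mat A) : Prop where
  test : IsArtinianTestAlgebra 𝒪 A
  finite : Finite A
  factors : GaloisFactorsThroughFiniteLevel r
  lift : ∀ (c : 𝒪) (σ : Γ) (i j : Fin 2), residue 𝒪 c = rbar σ i j →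
    r σ i j - algebraMap 𝒪 A c ∈ maximalIdeal A
  normal : IsNormalised x y r
  isType : 𝒟 (repOf r (IsCont.of_factors r factors))

/-- The kernels of the points. -/
def IsLevel (rbar : Γ →* Mat (ResidueField 𝒪)) (x y : Γ →₀ 𝒪)
    (𝒟 : ∀ ⦃A : Type⦄ [CommRing A] [IsLocalRing A] [Algebra 𝒪 A], GaloisRepAdic A → Prop)
    (I : Ideal (FrameRing 𝒪)) : Prop :=
  ∃ (A : Type) (_ : CommRing A) (_ : IsLocalRing A) (_ : Algebra 𝒪 A) (r : Γ →* Mat A),
    IsPoint rbar x y 𝒟 A r ∧ Function.Surjective (frameHom (𝒪 := 𝒪) r) ∧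
      RingHom.ker (frameHom (𝒪 := 𝒪) r) = I

section TestAlgebra

variable {A : Type} [CommRing A] [IsLocalRing A] [Algebra 𝒪 A]

theorem isLift_iff_forall_sub_mem [IsLocalHom (algebraMap 𝒪 A)] (r : Γ →* Mat A) :
    IsLift rbar r ↔ ∀ (c : 𝒪) (σ : Γ) (i j : Fin 2), residue 𝒪 c = rbar σ i j →
      r σ i j - algebraMap 𝒪 A c ∈ maximalIdeal A := by
  constructor
  · intro h c σ i j hc
    have e := congrFun (congrFun (h σ) i) j
    rw [Matrix.map_apply, Matrix.map_apply, ← hc, ResidueField.map_residue] at e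
    rw [← residue_eq_zero_iff, map_sub, sub_eq_zero]
    exact e
  · intro h σ
    ext i j
    obtain ⟨c, hc⟩ := residue_surjective (rbar σ i j)
    have e := h c σ i j hc
    rw [← residue_eq_zero_iff, map_sub, sub_eq_zero] at e
    rw [Matrix.map_apply, Matrix.map_apply, ← hc, ResidueField.map_residue, e]

omit [IsLocalRing 𝒪] in
theorem isArtinianTestAlgebra_of_surjective {B : Type} [CommRing B] [IsLocalRing B]
    [Algebra 𝒪 B] (h : IsArtinianTestAlgebra 𝒪 A) (φ : A →ₐ[𝒪] B)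
    (hφ : Function.Surjective φ) : IsArtinianTestAlgebra 𝒪 B := by
  have := h.isArtinian
  have := h.isLocalHom
  have : IsLocalHom (φ : A →+* B) := IsLocalHom.of_surjective _ hφ
  refine ⟨⟨fun c hc => ?_⟩, fun z => ?_, Function.Surjective.isArtinianRing (f := (φ : A →+* B)) hφ⟩
  · rw [← φ.commutes] at hc
    exact IsUnit.of_map (algebraMap 𝒪 A) c (IsUnit.of_map (φ : A →+* B) _ hc)
  · obtain ⟨b, rfl⟩ := residue_surjective z
    obtain ⟨a, rfl⟩ := hφ b
    obtain ⟨c, hc⟩ := h.residue_surjective (residue A a)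
    refine ⟨c, ?_⟩
    have := congrArg (ResidueField.map (φ : A →+* B)) hc
    simpa [ResidueField.map_residue] using this

theorem exists_maximalIdeal_pow_eq_bot [IsArtinianRing A] :
    ∃ n, maximalIdeal A ^ n = ⊥ := by
  obtain ⟨n, hn⟩ := IsArtinianRing.isNilpotent_jacobson_bot (R := A)
  rw [jacobson_eq_maximalIdeal ⊥ bot_ne_top] at hn
  exact ⟨n, hn⟩

variable {r : Γ →* Mat A} (hr : IsPoint rbar x y 𝒟 A r)
include hr

theorem IsPoint.frameHom_sub_mem (p : FrameRing 𝒪) :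
    ∀ c : 𝒪, residue 𝒪 c = frameHom (𝒪 := 𝒪) rbar p →
      frameHom (𝒪 := 𝒪) r p - algebraMap 𝒪 A c ∈ maximalIdeal A := by
  have := hr.test.isLocalHom
  induction p using MvPolynomial.induction_on with
  | C a =>
    intro c hc
    have e : frameHom (𝒪 := 𝒪) r (MvPolynomial.C a) = algebraMap 𝒪 A a := AlgHom.commutes _ a
    have e' : frameHom (𝒪 := 𝒪) rbar (MvPolynomial.C a) = residue 𝒪 a := AlgHom.commutes _ a
    rw [e', ← sub_eq_zero, ← map_sub, residue_eq_zero_iff] at hc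
    rw [e, ← map_sub]
    exact map_nonunit (algebraMap 𝒪 A) _ (by simpa using (maximalIdeal 𝒪).neg_mem hc)
  | add p q hp hq =>
    intro c hc
    obtain ⟨a, ha⟩ := residue_surjective (frameHom (𝒪 := 𝒪) rbar p)
    have := (maximalIdeal A).add_mem (hp a ha)
      (hq (c - a) (by rw [map_sub, hc, ha, map_add, add_sub_cancel_left]))
    rw [map_sub] at this
    rw [map_add]
    convert this using 1
    abel
  | mul_X p v hp =>
    intro c hc
    obtain ⟨a, ha⟩ := residue_surjective (frameHom (𝒪 := 𝒪) rbar p)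
    obtain ⟨b, hb⟩ := residue_surjective (rbar v.1 v.2.1 v.2.2)
    have h1 := hp a ha
    have h2 : r v.1 v.2.1 v.2.2 - algebraMap 𝒪 A b ∈ maximalIdeal A := hr.lift b _ _ _ hb
    have h3 : algebraMap 𝒪 A (a * b - c) ∈ maximalIdeal A := by
      refine map_nonunit (algebraMap 𝒪 A) _ ?_
      rw [← residue_eq_zero_iff, map_sub, map_mul, hc, ha, hb, map_mul, sub_eq_zero]
      rw [frameHom_X]
    rw [map_mul, frameHom_X]
    rw [map_sub, map_mul] at h3
    have := (maximalIdeal A).add_mem ((maximalIdeal A).add_mem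
      ((maximalIdeal A).mul_mem_right (r v.1 v.2.1 v.2.2) h1)
      ((maximalIdeal A).mul_mem_left (algebraMap 𝒪 A a) h2)) h3
    convert this using 1
    ring

theorem IsPoint.frameHom_mem_iff (p : FrameRing 𝒪) :
    frameHom (𝒪 := 𝒪) r p ∈ maximalIdeal A ↔ p ∈ frameMax rbar := by
  have := hr.test.isLocalHom
  obtain ⟨c, hc⟩ := residue_surjective (frameHom (𝒪 := 𝒪) rbar p)
  have h := hr.frameHom_sub_mem p c hc
  rw [frameMax, RingHom.mem_ker, ← hc]
  refine ⟨fun hp => ?_, fun hp => ?_⟩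
  · have : algebraMap 𝒪 A c ∈ maximalIdeal A := by
      simpa using (maximalIdeal A).sub_mem hp h
    rw [residue_eq_zero_iff]
    by_contra hn
    exact this ((IsLocalRing.notMem_maximalIdeal.mp hn).map (algebraMap 𝒪 A))
  · have : algebraMap 𝒪 A c ∈ maximalIdeal A :=
      map_nonunit (algebraMap 𝒪 A) _ ((residue_eq_zero_iff c).mp hp)
    simpa using (maximalIdeal A).add_mem h this

theorem IsPoint.ker_le : RingHom.ker (frameHom (𝒪 := 𝒪) r) ≤ frameMax rbar := fun p hp =>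
  (hr.frameHom_mem_iff p).mp (by rw [RingHom.mem_ker.mp hp]; exact Submodule.zero_mem _)

theorem IsPoint.exists_pow_le :
    ∃ n, frameMax rbar ^ n ≤ RingHom.ker (frameHom (𝒪 := 𝒪) r) := by
  have := hr.test.isArtinian
  obtain ⟨n, hn⟩ := exists_maximalIdeal_pow_eq_bot (A := A)
  refine ⟨n, ?_⟩
  calc frameMax rbar ^ n
      ≤ (maximalIdeal A).comap (frameHom (𝒪 := 𝒪) r) ^ n :=
        Ideal.pow_right_mono (fun p hp => (hr.frameHom_mem_iff p).mpr hp) n
    _ ≤ (maximalIdeal A ^ n).comap (frameHom (𝒪 := 𝒪) r) := Ideal.le_comap_pow _ n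
    _ = RingHom.ker (frameHom (𝒪 := 𝒪) r) := by rw [hn]; rfl

theorem IsPoint.map {B : Type} [CommRing B] [IsLocalRing B] [Algebra 𝒪 B]
    (h𝒟 : IsDeformationCondition 𝒪 𝒟) (φ : A →ₐ[𝒪] B) (hφ : IsLocalHom (φ : A →+* B))
    (hB : IsArtinianTestAlgebra 𝒪 B) [Finite B] :
    IsPoint rbar x y 𝒟 B (mapRep (φ : A →+* B) r) where
  test := hB
  finite := inferInstance
  factors := factors_mapRep hr.factors _
  lift c σ i j hc := by
    have := map_nonunit (φ : A →+* B) _ (hr.lift c σ i j hc)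
    simpa using this
  normal := hr.normal.map φ
  isType := h𝒟.of_isEquiv hB (repOf_baseChangeAlong_isEquiv _ _ hφ rfl _)
    (h𝒟.baseChangeAlong hr.test hB φ hφ hr.isType)

end TestAlgebra

/-- The generated subalgebra of a finite algebra, as a candidate point. -/
theorem exists_rangeRep {A P : Type} [CommRing A] [IsLocalRing A] [Algebra 𝒪 A] [CommRing P]
    [Algebra 𝒪 P] [Finite P] {r : Γ →* Mat P} (π : P →ₐ[𝒪] A)
    (hπ : IsPoint rbar x y 𝒟 A (mapRep (π : P →+* A) r))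
    (hunit : ∀ p, IsUnit (π (frameHom (𝒪 := 𝒪) r p)) → IsUnit (frameHom (𝒪 := 𝒪) r p))
    (hfac : GaloisFactorsThroughFiniteLevel r) (hnorm : IsNormalised x y r) :
    ∃ (T : Type) (_ : CommRing T) (_ : IsLocalRing T) (_ : Algebra 𝒪 T) (rT : Γ →* Mat T)
      (ι : T →ₐ[𝒪] P) (hf : GaloisFactorsThroughFiniteLevel rT),
      Function.Injective ι ∧ mapRep (ι : T →+* P) rT = r ∧
      Function.Surjective (frameHom (𝒪 := 𝒪) rT) ∧ IsArtinianTestAlgebra 𝒪 T ∧
      RingHom.ker (frameHom (𝒪 := 𝒪) rT) = RingHom.ker (frameHom (𝒪 := 𝒪) r) ∧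
      (∀ t, IsUnit (π (ι t)) → IsUnit t) ∧
      (𝒟 (repOf rT (IsCont.of_factors rT hf)) → IsPoint rbar x y 𝒟 T rT) := by
  let T := (frameHom (𝒪 := 𝒪) r).range
  have : IsArtinianRing T := inferInstance
  have hnzd : ∀ t : T, IsUnit (T.val t) → IsUnit t := fun t ht => by
    have hinj : Function.Injective (t * ·) := fun a b hab =>
      Subtype.ext (ht.mul_right_injective (congrArg T.val hab))
    obtain ⟨b, hb⟩ := (Finite.injective_iff_surjective.mp hinj) 1
    exact IsUnit.of_mul_eq_one b hb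
  have hu : ∀ t : T, IsUnit (π (T.val t)) → IsUnit t := by
    rintro ⟨_, p, rfl⟩ ht
    exact hnzd _ (hunit p ht)
  have hloc : IsLocalHom ((π.comp T.val : T →ₐ[𝒪] A) : T →+* A) := ⟨hu⟩
  have : IsLocalRing T := RingHom.domain_isLocalRing ((π.comp T.val : T →ₐ[𝒪] A) : T →+* A)
  have hmem : ∀ t : T, t ∈ maximalIdeal T ↔ π (T.val t) ∈ maximalIdeal A := fun t =>
    ⟨fun h => map_nonunit ((π.comp T.val : T →ₐ[𝒪] A) : T →+* A) t h,
      fun h hn => h (hn.map ((π.comp T.val : T →ₐ[𝒪] A) : T →+* A))⟩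
  let entry : Γ → Mat T := fun σ => Matrix.of fun i j =>
    ⟨r σ i j, ⟨MvPolynomial.X (σ, i, j), frameHom_X r σ i j⟩⟩
  have hentry : ∀ σ, (entry σ).map T.val = r σ := fun σ => rfl
  let rT : Γ →* Mat T :=
    { toFun := entry
      map_one' := Matrix.map_injective Subtype.val_injective
        ((hentry 1).trans (by rw [map_one]; exact (Matrix.map_one _ rfl rfl).symm))
      map_mul' := fun σ τ => Matrix.map_injective Subtype.val_injective
        ((hentry (σ * τ)).trans (by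
          rw [map_mul, ← hentry σ, ← hentry τ]
          exact (Matrix.map_mul (f := T.val.toRingHom)).symm)) }
  have hrT : mapRep (T.val : T →+* P) rT = r := MonoidHom.ext hentry
  have hf : GaloisFactorsThroughFiniteLevel rT :=
    factors_of_mapRep (T.val : T →+* P) Subtype.val_injective (hrT.symm ▸ hfac)
  have hcomp : T.val.comp (frameHom (𝒪 := 𝒪) rT) = frameHom r := by
    rw [comp_frameHom, hrT]
  have htest : IsArtinianTestAlgebra 𝒪 T := by
    have := hπ.test.isLocalHom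
    refine ⟨⟨fun c hc => ?_⟩, fun z => ?_, inferInstance⟩
    · refine IsUnit.of_map (algebraMap 𝒪 A) c ?_
      have := hc.map ((π.comp T.val : T →ₐ[𝒪] A))
      rwa [AlgHom.commutes] at this
    · obtain ⟨t, rfl⟩ := residue_surjective z
      obtain ⟨c, hc⟩ := hπ.test.residue_surjective (residue A (π (T.val t)))
      refine ⟨c, ?_⟩
      rw [Function.comp_apply, ← sub_eq_zero, ← map_sub, residue_eq_zero_iff, hmem]
      rw [Function.comp_apply, ← sub_eq_zero, ← map_sub, residue_eq_zero_iff] at hc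
      simpa using hc
  refine ⟨T, inferInstance, inferInstance, inferInstance, rT, T.val, hf, Subtype.val_injective,
    hrT, ?_, htest, ?_, hu, fun hD => ?_⟩
  · rintro ⟨_, p, rfl⟩
    exact ⟨p, Subtype.ext (DFunLike.congr_fun hcomp p)⟩
  · ext p
    rw [RingHom.mem_ker, RingHom.mem_ker, ← DFunLike.congr_fun hcomp p, AlgHom.comp_apply]
    exact (map_eq_zero_iff T.val Subtype.val_injective).symm
  · exact
      { test := htest
        finite := inferInstance
        factors := hf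
        lift := fun c σ i j hc => by
          rw [hmem, map_sub, map_sub, AlgHom.commutes, AlgHom.commutes]
          exact hπ.lift c σ i j hc
        normal := IsNormalised.of_map T.val Subtype.val_injective (hrT.symm ▸ hnorm)
        isType := hD }

/-- A point in a test algebra gives a level. -/
theorem IsPoint.isLevel_ker (h𝒟 : IsDeformationCondition 𝒪 𝒟) {A : Type} [CommRing A]
    [IsLocalRing A] [Algebra 𝒪 A] {r : Γ →* Mat A} (hr : IsPoint rbar x y 𝒟 A r) :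
    IsLevel rbar x y 𝒟 (RingHom.ker (frameHom (𝒪 := 𝒪) r)) := by
  have := hr.finite
  obtain ⟨T, _, _, _, rT, ι, hf, hinj, hrT, hsurj, htest, hker, hu, hP⟩ :=
    exists_rangeRep (P := A) (r := r) (AlgHom.id 𝒪 A) (by convert hr; exact MonoidHom.ext fun _ => rfl)
      (fun p hp => hp) hr.factors hr.normal
  have hι : IsLocalHom (ι : T →+* A) := ⟨hu⟩
  refine ⟨T, _, _, _, rT, hP ?_, hsurj, hker⟩
  refine h𝒟.of_baseChangeAlong_injective htest hr.test ι hι hinj ?_
  refine h𝒟.of_isEquiv hr.test ?_ hr.isType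
  exact (repOf_baseChangeAlong_isEquiv _ _ hι hrT _).elim fun e => ⟨e.symm⟩

theorem IsLevel.le_frameMax {I : Ideal (FrameRing 𝒪)} (hI : IsLevel rbar x y 𝒟 I) :
    I ≤ frameMax rbar := by
  obtain ⟨A, _, _, _, r, hr, -, rfl⟩ := hI
  exact hr.ker_le

theorem IsLevel.exists_pow_le {I : Ideal (FrameRing 𝒪)} (hI : IsLevel rbar x y 𝒟 I) :
    ∃ n, frameMax rbar ^ n ≤ I := by
  obtain ⟨A, _, _, _, r, hr, -, rfl⟩ := hI
  exact hr.exists_pow_le

theorem IsLevel.finite {I : Ideal (FrameRing 𝒪)} (hI : IsLevel rbar x y 𝒟 I) :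
    Finite (FrameRing 𝒪 ⧸ I) := by
  obtain ⟨A, _, _, _, r, hr, hs, rfl⟩ := hI
  have := hr.finite
  exact Finite.of_equiv A (Ideal.quotientKerAlgEquivOfSurjective hs).toEquiv.symm

theorem frameMax_ne_top : frameMax rbar ≠ ⊤ := RingHom.ker_ne_top _

/-- The canonical point of a level on the quotient. -/
theorem IsLevel.exists_point_quotient (h𝒟 : IsDeformationCondition 𝒪 𝒟)
    {I J : Ideal (FrameRing 𝒪)} (hI : IsLevel rbar x y 𝒟 I) (hIJ : I ≤ J)
    (hJ : J ≤ frameMax rbar) :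
    ∃ (_ : IsLocalRing (FrameRing 𝒪 ⧸ J)) (r : Γ →* Mat (FrameRing 𝒪 ⧸ J)),
      IsPoint rbar x y 𝒟 (FrameRing 𝒪 ⧸ J) r ∧
      frameHom (𝒪 := 𝒪) r = Ideal.Quotient.mkₐ 𝒪 J := by
  obtain ⟨A, _, _, _, r, hr, hs, rfl⟩ := hI
  have hne : J ≠ ⊤ := fun e => frameMax_ne_top (top_le_iff.mp (e ▸ hJ))
  have : Nontrivial (FrameRing 𝒪 ⧸ J) := Ideal.Quotient.nontrivial_iff.mpr hne
  let φ : A →ₐ[𝒪] FrameRing 𝒪 ⧸ J := (Ideal.Quotient.factorₐ 𝒪 hIJ).comp
    (Ideal.quotientKerAlgEquivOfSurjective hs).symm.toAlgHom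
  have hφ : ∀ p, φ (frameHom (𝒪 := 𝒪) r p) = Ideal.Quotient.mkₐ 𝒪 J p := by
    intro p
    have : (Ideal.quotientKerAlgEquivOfSurjective hs).symm (frameHom (𝒪 := 𝒪) r p) =
        Ideal.Quotient.mk _ p :=
      (Ideal.quotientKerAlgEquivOfSurjective hs).symm_apply_eq.mpr
        (Ideal.quotientKerAlgEquivOfSurjective_mk hs p).symm
    simp only [φ, AlgHom.comp_apply]
    erw [this]
    rfl
  have hφs : Function.Surjective φ := fun z => by
    obtain ⟨p, rfl⟩ := Ideal.Quotient.mk_surjective z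
    exact ⟨_, hφ p⟩
  have : IsLocalRing (FrameRing 𝒪 ⧸ J) :=
    IsLocalRing.of_surjective' (φ : A →+* FrameRing 𝒪 ⧸ J) hφs
  have hloc : IsLocalHom (φ : A →+* FrameRing 𝒪 ⧸ J) := IsLocalHom.of_surjective _ hφs
  have := hr.finite
  have : Finite (FrameRing 𝒪 ⧸ J) := Finite.of_surjective _ hφs
  refine ⟨inferInstance, _, hr.map h𝒟 φ hloc (isArtinianTestAlgebra_of_surjective hr.test φ hφs),
    ?_⟩
  rw [← comp_frameHom]
  exact AlgHom.ext hφ

theorem IsLevel.upward (h𝒟 : IsDeformationCondition 𝒪 𝒟)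
    {I J : Ideal (FrameRing 𝒪)} (hI : IsLevel rbar x y 𝒟 I) (hIJ : I ≤ J)
    (hJ : J ≤ frameMax rbar) : IsLevel rbar x y 𝒟 J := by
  obtain ⟨_, r, hr, he⟩ := hI.exists_point_quotient h𝒟 hIJ hJ
  refine ⟨_, _, _, _, r, hr, ?_, ?_⟩
  · rw [he]; exact Ideal.Quotient.mk_surjective
  · rw [he]; exact Ideal.Quotient.mkₐ_ker 𝒪 J

theorem IsLevel.inf (h𝒟 : IsDeformationCondition 𝒪 𝒟) {I J : Ideal (FrameRing 𝒪)}
    (hI : IsLevel rbar x y 𝒟 I) (hJ : IsLevel rbar x y 𝒟 J) :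
    IsLevel rbar x y 𝒟 (I ⊓ J) := by
  obtain ⟨_, rC, hC, heC⟩ := hI.exists_point_quotient h𝒟 (le_sup_left (b := J))
    (sup_le hI.le_frameMax hJ.le_frameMax)
  obtain ⟨A, _, _, _, rA, hA, hsA, hkA⟩ := hI
  obtain ⟨B, _, _, _, rB, hB, hsB, hkB⟩ := hJ
  have := hA.finite
  have := hB.finite
  let r := pairRep rA rB
  have hfst : mapRep ((AlgHom.fst 𝒪 A B : A × B →ₐ[𝒪] A) : A × B →+* A) r = rA :=
    MonoidHom.ext fun _ => Matrix.ext fun _ _ => rfl
  have hsnd : mapRep ((AlgHom.snd 𝒪 A B : A × B →ₐ[𝒪] B) : A × B →+* B) r = rB :=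
    MonoidHom.ext fun _ => Matrix.ext fun _ _ => rfl
  have h1 : ∀ p, (frameHom (𝒪 := 𝒪) r p).1 = frameHom (𝒪 := 𝒪) rA p := fun p => by
    rw [← hfst, ← comp_frameHom]; rfl
  have h2 : ∀ p, (frameHom (𝒪 := 𝒪) r p).2 = frameHom (𝒪 := 𝒪) rB p := fun p => by
    rw [← hsnd, ← comp_frameHom]; rfl
  have hiff : ∀ p, IsUnit (frameHom (𝒪 := 𝒪) rA p) ↔ IsUnit (frameHom (𝒪 := 𝒪) rB p) := by
    intro p
    rw [← not_iff_not]
    exact (hA.frameHom_mem_iff p).trans (hB.frameHom_mem_iff p).symm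
  have hnorm : IsNormalised x y r := by
    have a1 := comb_mapRep x (AlgHom.fst 𝒪 A B) r
    have a2 := comb_mapRep x (AlgHom.snd 𝒪 A B) r
    have b1 := comb_mapRep y (AlgHom.fst 𝒪 A B) r
    have b2 := comb_mapRep y (AlgHom.snd 𝒪 A B) r
    rw [hfst] at a1 b1
    rw [hsnd] at a2 b2
    refine ⟨Prod.ext ?_ ?_, Prod.ext ?_ ?_, Prod.ext ?_ ?_⟩
    · simpa [a1] using hA.normal.x01
    · simpa [a2] using hB.normal.x01
    · simpa [a1] using hA.normal.x10
    · simpa [a2] using hB.normal.x10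
    · simpa [b1] using hA.normal.y01
    · simpa [b2] using hB.normal.y01
  obtain ⟨T, _, _, _, rT, ι, hf, hinj, hrT, hsurj, htest, hker, hu, hP⟩ :=
    exists_rangeRep (P := A × B) (r := r) (AlgHom.fst 𝒪 A B) (by rw [hfst]; exact hA)
      (fun p hp => Prod.isUnit_iff.mpr ⟨hp, by rw [h2]; exact (hiff p).mp (h1 p ▸ hp)⟩)
      (factors_pairRep hA.factors hB.factors) hnorm
  let pA : T →ₐ[𝒪] A := (AlgHom.fst 𝒪 A B).comp ι
  let pB : T →ₐ[𝒪] B := (AlgHom.snd 𝒪 A B).comp ι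
  have hTp : ∀ p, ι (frameHom (𝒪 := 𝒪) rT p) = frameHom (𝒪 := 𝒪) r p := fun p => by
    rw [← hrT, ← comp_frameHom]; rfl
  have hpA : IsLocalHom (pA : T →+* A) := ⟨hu⟩
  have hpB : IsLocalHom (pB : T →+* B) := by
    refine ⟨fun t ht => hu t ?_⟩
    obtain ⟨p, rfl⟩ := hsurj t
    have ht' : IsUnit (frameHom (𝒪 := 𝒪) r p).2 := by rw [← hTp]; exact ht
    show IsUnit (ι (frameHom (𝒪 := 𝒪) rT p)).1
    rw [hTp, h1, hiff, ← h2]
    exact ht'
  refine ⟨T, _, _, _, rT, hP ?_, hsurj, ?_⟩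
  swap
  · rw [hker, ← hkA, ← hkB]
    ext p
    rw [RingHom.mem_ker, Ideal.mem_inf, RingHom.mem_ker, RingHom.mem_ker, Prod.ext_iff, h1, h2]
    rfl
  have heA : mapRep (pA : T →+* A) rT = rA := by
    rw [← hfst, ← hrT, mapRep_mapRep]; rfl
  have heB : mapRep (pB : T →+* B) rT = rB := by
    rw [← hsnd, ← hrT, mapRep_mapRep]; rfl
  subst hkA hkB
  let f : A →ₐ[𝒪] _ := (Ideal.Quotient.factorₐ 𝒪
    (le_sup_left (b := RingHom.ker (frameHom (𝒪 := 𝒪) rB)))).comp
      (Ideal.quotientKerAlgEquivOfSurjective hsA).symm.toAlgHom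
  let g : B →ₐ[𝒪] _ := (Ideal.Quotient.factorₐ 𝒪
    (le_sup_right (a := RingHom.ker (frameHom (𝒪 := 𝒪) rA)))).comp
      (Ideal.quotientKerAlgEquivOfSurjective hsB).symm.toAlgHom
  have hf' : ∀ p, f (frameHom (𝒪 := 𝒪) rA p) = Ideal.Quotient.mk _ p := by
    intro p
    simp only [f, AlgHom.comp_apply]
    erw [(Ideal.quotientKerAlgEquivOfSurjective hsA).symm_apply_eq.mpr
      (Ideal.quotientKerAlgEquivOfSurjective_mk hsA p).symm]
    rfl
  have hg' : ∀ p, g (frameHom (𝒪 := 𝒪) rB p) = Ideal.Quotient.mk _ p := by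
    intro p
    simp only [g, AlgHom.comp_apply]
    erw [(Ideal.quotientKerAlgEquivOfSurjective hsB).symm_apply_eq.mpr
      (Ideal.quotientKerAlgEquivOfSurjective_mk hsB p).symm]
    rfl
  refine h𝒟.of_fibreProduct hA.test hB.test hC.test htest f g pA pB hpA hpB ?_ ?_ ?_ ?_ ?_
  · refine AlgHom.ext fun t => ?_
    obtain ⟨p, rfl⟩ := hsurj t
    show f (ι (frameHom (𝒪 := 𝒪) rT p)).1 = g (ι (frameHom (𝒪 := 𝒪) rT p)).2
    rw [hTp, h1, h2, hf', hg']
  · exact fun s t hst => hinj (Prod.ext (congrArg Prod.fst hst) (congrArg Prod.snd hst))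
  · intro a b hab
    obtain ⟨p, rfl⟩ := hsA a
    obtain ⟨q, rfl⟩ := hsB b
    rw [hf', hg', Ideal.Quotient.mk_eq_mk_iff_sub_mem, Submodule.mem_sup] at hab
    obtain ⟨i, hi, j, hj, hij⟩ := hab
    rw [RingHom.mem_ker] at hi hj
    refine ⟨frameHom (𝒪 := 𝒪) rT (p - i), ?_, ?_⟩
    · show (ι (frameHom (𝒪 := 𝒪) rT (p - i))).1 = _
      rw [hTp, h1, map_sub, hi, sub_zero]
    · show (ι (frameHom (𝒪 := 𝒪) rT (p - i))).2 = _
      rw [hTp, h2, show p - i = q + j by linear_combination -hij, map_add, hj, add_zero]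
  · exact h𝒟.of_isEquiv hA.test
      ((repOf_baseChangeAlong_isEquiv _ _ hpA heA _).elim fun e => ⟨e.symm⟩) hA.isType
  · exact h𝒟.of_isEquiv hB.test
      ((repOf_baseChangeAlong_isEquiv _ _ hpB heB _).elim fun e => ⟨e.symm⟩) hB.isType

end Fermat.Agent.Deformation
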