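import Fermat.Agent.Deformation.Frame
import Mathlib.RingTheory.Ideal.Quotient.Index
import Mathlib.RingTheory.Polynomial.Basic

/-!
Finite generation of the levels: a finite family of elements of the frame ring generates the
maximal ideal modulo every level, and for each `n` there is a least level containing the `n`-th
power of the maximal ideal.
-/

set_option autoImplicit false

noncomputable section

open IsLocalRing Module GaloisRep

namespace Fermat.Agent.Deformation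

/-- A set of ideals closed under intersection, with quotients of bounded size, has a least
element. -/
theorem exists_isLeast_of_natCard_le {R : Type} [CommRing R] (S : Set (Ideal R))
    (hne : S.Nonempty) (hinf : ∀ I ∈ S, ∀ J ∈ S, I ⊓ J ∈ S) (hfin : ∀ I ∈ S, Finite (R ⧸ I))
    (N : ℕ) (hN : ∀ I ∈ S, Nat.card (R ⧸ I) ≤ N) : ∃ I, IsLeast S I := by
  have hbdd : BddAbove ((fun I => Nat.card (R ⧸ I)) '' S) :=
    ⟨N, by rintro _ ⟨I, hI, rfl⟩; exact hN I hI⟩
  obtain ⟨I, hI, hmax⟩ := Nat.sSup_mem (hne.image _) hbdd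
  refine ⟨I, hI, fun J hJ => ?_⟩
  have hIJ : I ⊓ J ∈ S := hinf I hI J hJ
  have := hfin _ hIJ
  have hle : Nat.card (R ⧸ I ⊓ J) ≤ Nat.card (R ⧸ I) := by
    simp only at hmax
    rw [hmax]
    exact le_csSup hbdd ⟨_, hIJ, rfl⟩
  have hbij := (Ideal.Quotient.factor_surjective (inf_le_left (b := J) (a := I))
    ).bijective_of_nat_card_le hle
  intro z hz
  have : Ideal.Quotient.factor (inf_le_left (b := J) (a := I)) (Ideal.Quotient.mk _ z) =
      Ideal.Quotient.factor (inf_le_left (b := J) (a := I)) 0 := by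
    rw [Ideal.Quotient.factor_mk, map_zero, Ideal.Quotient.eq_zero_iff_mem]
    exact hz
  exact (Ideal.mem_inf.mp (Ideal.Quotient.eq_zero_iff_mem.mp (hbij.1 this))).2

variable {𝒪 : Type} [CommRing 𝒪] [IsLocalRing 𝒪]
variable {rbar : Γ →* Mat (ResidueField 𝒪)} {x y : Γ →₀ 𝒪}
variable {𝒟 : ∀ ⦃A : Type⦄ [CommRing A] [IsLocalRing A] [Algebra 𝒪 A], GaloisRepAdic A → Prop}

theorem C_mem_frameMax {c : 𝒪} (hc : c ∈ maximalIdeal 𝒪) :
    MvPolynomial.C c ∈ frameMax rbar := by
  rw [frameMax, RingHom.mem_ker]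
  exact (AlgHom.commutes _ c).trans ((residue_eq_zero_iff c).mpr hc)

theorem frameHom_rbar_surjective : Function.Surjective (frameHom (𝒪 := 𝒪) rbar) := fun z => by
  obtain ⟨c, rfl⟩ := residue_surjective z
  exact ⟨MvPolynomial.C c, AlgHom.commutes _ c⟩

instance isMaximal_frameMax : (frameMax rbar).IsMaximal :=
  RingHom.ker_isMaximal_of_surjective _ frameHom_rbar_surjective

/-- The residual representation is a point. -/
theorem isPoint_residualMatrix [Finite (ResidueField 𝒪)]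
    {ρbar : ResidualGaloisRep (ResidueField 𝒪)} (b : Basis (Fin 2) (ResidueField 𝒪) ρbar.V)
    (hp : IsNormPair x y (residualMatrix ρbar b)) (h𝒟 : IsDeformationCondition 𝒪 𝒟)
    (hbar : 𝒟 (GaloisRepAdic.ofResidualGaloisRep ρbar)) :
    IsPoint (residualMatrix ρbar b) x y 𝒟 (ResidueField 𝒪) (residualMatrix ρbar b) := by
  have hf : GaloisFactorsThroughFiniteLevel (residualMatrix ρbar b) := by
    obtain ⟨L, hL, h1⟩ := ρbar.factorsThroughFiniteLevel
    refine ⟨L, hL, fun σ hσ => ?_⟩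
    rw [residualMatrix_apply, h1 σ hσ, LinearMap.toMatrix_one]
  have htest : IsArtinianTestAlgebra 𝒪 (ResidueField 𝒪) := by
    refine ⟨inferInstanceAs (IsLocalHom (residue 𝒪)), fun z => ?_, inferInstance⟩
    obtain ⟨a, rfl⟩ := residue_surjective z
    obtain ⟨c, rfl⟩ := residue_surjective a
    exact ⟨c, rfl⟩
  exact
    { test := htest
      finite := inferInstance
      factors := hf
      lift := fun c σ i j hc => by
        have e : algebraMap 𝒪 (ResidueField 𝒪) c = residue 𝒪 c := rfl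
        rw [e, hc, sub_self]
        exact Submodule.zero_mem _
      normal :=
        ⟨by rw [← residueComb_eq_comb, hp.x_eq]; simp,
         by rw [← residueComb_eq_comb, hp.x_eq]; simp,
         by rw [← residueComb_eq_comb, hp.y_eq]; simp⟩
      isType := h𝒟.of_isEquiv htest
        (isEquiv_repOf (GaloisRepAdic.ofResidualGaloisRep ρbar) b rfl _) hbar }

theorem isLevel_frameMax (hbase : IsPoint rbar x y 𝒟 (ResidueField 𝒪) rbar) :
    IsLevel rbar x y 𝒟 (frameMax rbar) :=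
  ⟨ResidueField 𝒪, _, _, _, rbar, hbase, frameHom_rbar_surjective, rfl⟩

/-- Generators of the maximal ideal modulo all levels, given a bound on the tangent levels. -/
theorem exists_generators [IsNoetherianRing 𝒪] (h𝒟 : IsDeformationCondition 𝒪 𝒟)
    (hbase : IsPoint rbar x y 𝒟 (ResidueField 𝒪) rbar)
    (htan : ∃ N : ℕ, ∀ I, IsLevel rbar x y 𝒟 I → frameMax rbar ^ 2 ≤ I →
      (∀ c ∈ maximalIdeal 𝒪, MvPolynomial.C c ∈ I) → Nat.card (FrameRing 𝒪 ⧸ I) ≤ N) :
    ∃ (ι : Type) (_ : Finite ι) (g : ι → FrameRing 𝒪), (∀ i, g i ∈ frameMax rbar) ∧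
      ∀ I, IsLevel rbar x y 𝒟 I → frameMax rbar ≤ Ideal.span (Set.range g) ⊔ I := by
  classical
  obtain ⟨N, hN⟩ := htan
  let S : Set (Ideal (FrameRing 𝒪)) := {I | IsLevel rbar x y 𝒟 I ∧ frameMax rbar ^ 2 ≤ I ∧
    ∀ c ∈ maximalIdeal 𝒪, MvPolynomial.C c ∈ I}
  obtain ⟨I₀, hI₀, hleast⟩ := exists_isLeast_of_natCard_le S
    ⟨frameMax rbar, isLevel_frameMax hbase, Ideal.pow_le_self two_ne_zero,
      fun c hc => C_mem_frameMax hc⟩
    (fun I hI J hJ => ⟨hI.1.inf h𝒟 hJ.1, le_inf hI.2.1 hJ.2.1,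
      fun c hc => ⟨hI.2.2 c hc, hJ.2.2 c hc⟩⟩)
    (fun I hI => hI.1.finite) N (fun I hI => hN I hI.1 hI.2.1 hI.2.2)
  obtain ⟨s, hs⟩ := IsNoetherian.noetherian (maximalIdeal 𝒪)
  have := hI₀.1.finite
  let M₀ := {a : FrameRing 𝒪 ⧸ I₀ // a ∈ (frameMax rbar).map (Ideal.Quotient.mk I₀)}
  have hlift : ∀ a : M₀, ∃ p ∈ frameMax rbar, Ideal.Quotient.mk I₀ p = a.1 := fun a =>
    (Ideal.mem_map_iff_of_surjective _ Ideal.Quotient.mk_surjective).mp a.2
  choose lift hlift hlift' using hlift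
  refine ⟨s ⊕ M₀, inferInstance, Sum.elim (fun c => MvPolynomial.C c.1) lift, ?_, fun I hI => ?_⟩
  · rintro (⟨c, hc⟩ | a)
    · exact C_mem_frameMax (hs ▸ Ideal.subset_span hc)
    · exact hlift a
  generalize hG : Ideal.span
    (Set.range (Sum.elim (fun c : s => MvPolynomial.C (σ := Γ × Fin 2 × Fin 2) c.1) lift)) = G
  have hC : ∀ c ∈ maximalIdeal 𝒪, MvPolynomial.C c ∈ G := by
    intro c hc
    rw [← hs] at hc
    have h := Ideal.mem_map_of_mem
      (MvPolynomial.C : 𝒪 →+* FrameRing 𝒪) hc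
    rw [Ideal.map_span] at h
    refine hG ▸ Ideal.span_mono ?_ h
    rintro _ ⟨c, hc, rfl⟩
    exact ⟨Sum.inl ⟨c, hc⟩, rfl⟩
  have hGM : G ≤ frameMax rbar := by
    rw [← hG, Ideal.span_le]
    rintro _ ⟨(⟨c, hc⟩ | a), rfl⟩
    · exact C_mem_frameMax (hs ▸ Ideal.subset_span hc)
    · exact hlift a
  have hM0 : frameMax rbar ≤ G ⊔ I₀ := fun p hp => by
    let a : M₀ := ⟨Ideal.Quotient.mk I₀ p, Ideal.mem_map_of_mem _ hp⟩
    refine Submodule.mem_sup.mpr ⟨lift a, hG ▸ Ideal.subset_span ⟨Sum.inr a, rfl⟩, p - lift a,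
      ?_, add_sub_cancel _ _⟩
    exact Ideal.Quotient.eq.mp (hlift' a).symm
  have hle : I₀ ≤ frameMax rbar ^ 2 ⊔ G ⊔ I := hleast
    ⟨hI.upward h𝒟 le_sup_right (sup_le (sup_le (Ideal.pow_le_self two_ne_zero) hGM) hI.le_frameMax),
      le_sup_of_le_left le_sup_left, fun c hc => le_sup_left (b := I) (le_sup_right (a := frameMax rbar ^ 2) (hC c hc))⟩
  have hstep : frameMax rbar ≤ G ⊔ I ⊔ frameMax rbar ^ 2 :=
    hM0.trans (sup_le (le_sup_of_le_left le_sup_left)
      (hle.trans (le_of_eq (by ac_rfl))))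
  have hall : ∀ j, frameMax rbar ≤ G ⊔ I ⊔ frameMax rbar ^ (j + 1) := by
    intro j
    induction j with
    | zero => simp
    | succ j ih =>
      refine hstep.trans (sup_le le_sup_left ?_)
      calc frameMax rbar ^ 2 = frameMax rbar * frameMax rbar := pow_two _
        _ ≤ (G ⊔ I ⊔ frameMax rbar ^ (j + 1)) * frameMax rbar := Ideal.mul_mono_left ih
        _ ≤ G ⊔ I ⊔ frameMax rbar ^ (j + 1 + 1) := by
          rw [Ideal.sup_mul]
          exact sup_le_sup Ideal.mul_le_left (le_of_eq (pow_succ _ _).symm)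
  obtain ⟨n, hn⟩ := hI.exists_pow_le
  exact (hall n).trans (sup_le le_rfl
    (le_sup_of_le_right ((Ideal.pow_le_pow_right (Nat.le_succ n)).trans hn)))

section Generated

variable {ι : Type} {g : ι → FrameRing 𝒪} (hg : ∀ i, g i ∈ frameMax rbar)
  (hgen : ∀ I, IsLevel rbar x y 𝒟 I → frameMax rbar ≤ Ideal.span (Set.range g) ⊔ I)
include hg hgen

/-- The generators generate every level quotient as an algebra. -/
theorem aeval_mk_surjective {I : Ideal (FrameRing 𝒪)} (hI : IsLevel rbar x y 𝒟 I) :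
    Function.Surjective
      ((Ideal.Quotient.mkₐ 𝒪 I).comp (MvPolynomial.aeval (R := 𝒪) g)) := by
  set G := Ideal.span (Set.range g) with hG
  let e : MvPolynomial ι 𝒪 →ₐ[𝒪] FrameRing 𝒪 := MvPolynomial.aeval g
  have hGe : G = (MvPolynomial.idealOfVars ι 𝒪).map e := by
    rw [hG, Ideal.map_span, ← Set.range_comp]
    exact congrArg _ (congrArg Set.range (funext fun i => (MvPolynomial.aeval_X g i).symm))
  have hGM : G ≤ frameMax rbar := Ideal.span_le.mpr (by rintro _ ⟨i, rfl⟩; exact hg i)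
  have key : ∀ j, ∀ p : FrameRing 𝒪, ∃ b, p - e b ∈ G ^ j ⊔ I := by
    intro j
    induction j with
    | zero => exact fun p => ⟨0, by simp⟩
    | succ j ih =>
      have hmain : ∀ q ∈ (MvPolynomial.idealOfVars ι 𝒪 ^ j).map e,
          ∃ b, q - e b ∈ G ^ (j + 1) ⊔ I := by
        intro q hq
        refine Submodule.span_induction (p := fun q _ => ∀ p : FrameRing 𝒪,
          ∃ b, p * q - e b ∈ G ^ (j + 1) ⊔ I) ?_ ?_ ?_ ?_ hq 1 |>.imp fun b hb => by simpa using hb
        · rintro _ ⟨b, hb, rfl⟩ p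
          obtain ⟨c, hc⟩ := residue_surjective (frameHom (𝒪 := 𝒪) rbar p)
          have hpc : p - MvPolynomial.C c ∈ G ⊔ I := by
            refine hgen I hI ?_
            rw [frameMax, RingHom.mem_ker, map_sub, ← hc]
            exact sub_eq_zero.mpr (AlgHom.commutes _ c).symm
          refine ⟨MvPolynomial.C c * b, ?_⟩
          have : p * e b - e (MvPolynomial.C c * b) = (p - MvPolynomial.C c) * e b := by
            rw [map_mul, show e (MvPolynomial.C c) = MvPolynomial.C c from AlgHom.commutes e c]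
            ring
          rw [this]
          have hb' : e b ∈ G ^ j := by
            rw [hGe, ← Ideal.map_pow]
            exact Ideal.mem_map_of_mem e hb
          have hmul := Ideal.mul_mem_mul hpc hb'
          rw [Ideal.sup_mul, ← pow_succ'] at hmul
          have hle : I * G ^ j ≤ I := Ideal.mul_le_left
          exact (sup_le_sup (le_refl (G ^ (j + 1))) hle) hmul
        · exact fun p => ⟨0, by simp⟩
        · intro a a' _ _ ha ha' p
          obtain ⟨b, hb⟩ := ha p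
          obtain ⟨b', hb'⟩ := ha' p
          refine ⟨b + b', ?_⟩
          have := Submodule.add_mem _ hb hb'
          convert this using 1
          rw [map_add]
          ring
        · intro a q _ hq p
          obtain ⟨b, hb⟩ := hq (p * a)
          exact ⟨b, by rwa [smul_eq_mul, ← mul_assoc]⟩
      intro p
      obtain ⟨b, hb⟩ := ih p
      obtain ⟨q, hq, i, hi, hqi⟩ := Submodule.mem_sup.mp hb
      rw [hGe, ← Ideal.map_pow] at hq
      obtain ⟨b', hb'⟩ := hmain q hq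
      refine ⟨b + b', ?_⟩
      have := Submodule.add_mem _ hb' (Ideal.mem_sup_right (S := G ^ (j + 1)) hi)
      convert this using 1
      rw [map_add]
      linear_combination -hqi
  intro z
  obtain ⟨p, rfl⟩ := Ideal.Quotient.mk_surjective z
  obtain ⟨n, hn⟩ := hI.exists_pow_le
  obtain ⟨b, hb⟩ := key n p
  refine ⟨b, ?_⟩
  have : G ^ n ⊔ I ≤ I := sup_le ((Ideal.pow_right_mono hGM n).trans hn) le_rfl
  exact (Ideal.Quotient.eq.mpr (this hb)).symm

theorem exists_natCard_bound [Finite ι] [IsNoetherianRing 𝒪] [Finite (ResidueField 𝒪)] (n : ℕ) :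
    ∃ N : ℕ, ∀ I, IsLevel rbar x y 𝒟 I → frameMax rbar ^ n ≤ I →
      Nat.card (FrameRing 𝒪 ⧸ I) ≤ N := by
  let e : MvPolynomial ι 𝒪 →ₐ[𝒪] FrameRing 𝒪 := MvPolynomial.aeval g
  let m₀ : Ideal (MvPolynomial ι 𝒪) := (frameMax rbar).comap e
  have : Finite (MvPolynomial ι 𝒪 ⧸ m₀) := by
    have : Finite (FrameRing 𝒪 ⧸ frameMax rbar) := Finite.of_equiv _
      (Ideal.quotientKerAlgEquivOfSurjective (frameHom_rbar_surjective (rbar := rbar))).toEquiv.symm
    exact Finite.of_injective (Ideal.quotientMap (frameMax rbar) e.toRingHom le_rfl)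
      Ideal.quotientMap_injective
  have := Ideal.finite_quotient_pow (IsNoetherian.noetherian m₀) n
  refine ⟨Nat.card (MvPolynomial ι 𝒪 ⧸ m₀ ^ n), fun I hI hn => ?_⟩
  have hle : m₀ ^ n ≤ RingHom.ker ((Ideal.Quotient.mkₐ 𝒪 I).comp e) := by
    intro b hb
    rw [RingHom.mem_ker]
    exact Ideal.Quotient.eq_zero_iff_mem.mpr (hn (Ideal.le_comap_pow _ n hb))
  refine Nat.card_le_card_of_surjective
    (Ideal.Quotient.liftₐ (m₀ ^ n) _ fun b hb => RingHom.mem_ker.mp (hle hb)) fun z => ?_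
  obtain ⟨b, hb⟩ := aeval_mk_surjective hg hgen hI z
  exact ⟨Ideal.Quotient.mk _ b, hb⟩

end Generated

/-- The least level containing the `n`-th power of the maximal ideal (`⊤` for `n = 0`). -/
def levelIdeal (rbar : Γ →* Mat (ResidueField 𝒪)) (x y : Γ →₀ 𝒪)
    (𝒟 : ∀ ⦃A : Type⦄ [CommRing A] [IsLocalRing A] [Algebra 𝒪 A], GaloisRepAdic A → Prop)
    (n : ℕ) : Ideal (FrameRing 𝒪) :=
  sInf {I | IsLevel rbar x y 𝒟 I ∧ frameMax rbar ^ n ≤ I}

theorem levelIdeal_zero : levelIdeal rbar x y 𝒟 0 = ⊤ := by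
  refine sInf_eq_top.mpr ?_
  rintro I ⟨-, h0⟩
  rwa [pow_zero, Ideal.one_eq_top, top_le_iff] at h0

theorem pow_le_levelIdeal (n : ℕ) : frameMax rbar ^ n ≤ levelIdeal rbar x y 𝒟 n :=
  le_sInf fun _ h => h.2

theorem levelIdeal_le {n : ℕ} {I : Ideal (FrameRing 𝒪)} (hI : IsLevel rbar x y 𝒟 I)
    (hn : frameMax rbar ^ n ≤ I) : levelIdeal rbar x y 𝒟 n ≤ I :=
  sInf_le ⟨hI, hn⟩

theorem levelIdeal_antitone : Antitone (levelIdeal rbar x y 𝒟) := fun _ _ h =>
  sInf_le_sInf fun _ hI => ⟨hI.1, (Ideal.pow_le_pow_right h).trans hI.2⟩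

theorem levelIdeal_one (hbase : IsPoint rbar x y 𝒟 (ResidueField 𝒪) rbar) :
    levelIdeal rbar x y 𝒟 1 = frameMax rbar :=
  le_antisymm (levelIdeal_le (isLevel_frameMax hbase) (pow_one (frameMax rbar)).le)
    ((pow_one (frameMax rbar)).ge.trans (pow_le_levelIdeal 1))

section Least

variable {ι : Type} [Finite ι] [IsNoetherianRing 𝒪] [Finite (ResidueField 𝒪)]
  {g : ι → FrameRing 𝒪} (hg : ∀ i, g i ∈ frameMax rbar)
  (hgen : ∀ I, IsLevel rbar x y 𝒟 I → frameMax rbar ≤ Ideal.span (Set.range g) ⊔ I)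
  (h𝒟 : IsDeformationCondition 𝒪 𝒟) (hbase : IsPoint rbar x y 𝒟 (ResidueField 𝒪) rbar)
include hg hgen h𝒟 hbase

theorem isLevel_levelIdeal {n : ℕ} (hn : n ≠ 0) :
    IsLevel rbar x y 𝒟 (levelIdeal rbar x y 𝒟 n) := by
  obtain ⟨N, hN⟩ := exists_natCard_bound hg hgen n
  obtain ⟨I, hI⟩ := exists_isLeast_of_natCard_le {I | IsLevel rbar x y 𝒟 I ∧ frameMax rbar ^ n ≤ I}
    ⟨frameMax rbar, isLevel_frameMax hbase, Ideal.pow_le_self hn⟩
    (fun I hI J hJ => ⟨hI.1.inf h𝒟 hJ.1, le_inf hI.2 hJ.2⟩) (fun I hI => hI.1.finite) N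
    (fun I hI => hN I hI.1 hI.2)
  rw [show levelIdeal rbar x y 𝒟 n = I from hI.csInf_eq]
  exact hI.1.1

theorem levelIdeal_le_succ_sup (n : ℕ) :
    levelIdeal rbar x y 𝒟 n ≤ levelIdeal rbar x y 𝒟 (n + 1) ⊔ frameMax rbar ^ n := by
  rcases eq_or_ne n 0 with rfl | hn
  · simp
  · have h := isLevel_levelIdeal hg hgen h𝒟 hbase (Nat.succ_ne_zero n)
    exact levelIdeal_le (h.upward h𝒟 le_sup_left
      (sup_le h.le_frameMax (Ideal.pow_le_self hn))) le_sup_right

end Least

end Fermat.Agent.Deformation
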