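import Mathlib.Algebra.DualNumber
import Mathlib.RingTheory.DualNumber
import Mathlib.LinearAlgebra.Dual.Lemmas
import Fermat.Agent.Deformation.Frame

/-!
Levels containing the square of the maximal ideal have bounded index, by the finiteness of the
tangent space.
-/

set_option autoImplicit false

noncomputable section

open IsLocalRing Module GaloisRep

namespace Fermat.Agent.Deformation

section DualHom

variable {k A : Type} [Field k] [CommRing A] [IsLocalRing A] [Algebra k A]

/-- The homomorphism to dual numbers attached to a residue map and a linear form on an algebra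
whose maximal ideal has square zero. -/
def dualHom (χ : A →+* k) (hχ : ∀ a, a - algebraMap k A (χ a) ∈ maximalIdeal A)
    (hsq : ∀ a ∈ maximalIdeal A, ∀ b ∈ maximalIdeal A, a * b = 0) (lam : A →ₗ[k] k) :
    A →+* DualNumber k where
  toFun a := TrivSqZeroExt.inl (χ a) + TrivSqZeroExt.inr (lam a - χ a * lam 1)
  map_one' := by simp
  map_zero' := by simp
  map_add' a b := by
    ext
    · simp
    · simp; ring
  map_mul' a b := by
    have h := hsq _ (hχ a) _ (hχ b)
    have hab : a * b = χ a • b + χ b • a - (χ a * χ b) • (1 : A) := by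
      rw [Algebra.smul_def, Algebra.smul_def, Algebra.smul_def, map_mul]
      linear_combination h
    have hl : lam (a * b) = χ a * lam b + χ b * lam a - χ a * χ b * lam 1 := by
      rw [hab]; simp
    ext
    · simp
    · simp [hl]; ring

theorem dualHom_fst (χ : A →+* k) (hχ : ∀ a, a - algebraMap k A (χ a) ∈ maximalIdeal A)
    (hsq : ∀ a ∈ maximalIdeal A, ∀ b ∈ maximalIdeal A, a * b = 0) (lam : A →ₗ[k] k) (a : A) :
    TrivSqZeroExt.fst (dualHom χ hχ hsq lam a) = χ a := by simp [dualHom]

theorem dualHom_snd (χ : A →+* k) (hχ : ∀ a, a - algebraMap k A (χ a) ∈ maximalIdeal A)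
    (hsq : ∀ a ∈ maximalIdeal A, ∀ b ∈ maximalIdeal A, a * b = 0) (lam : A →ₗ[k] k) (a : A) :
    TrivSqZeroExt.snd (dualHom χ hχ hsq lam a) = lam a - χ a * lam 1 := by simp [dualHom]

theorem dualHom_algebraMap (χ : A →+* k) (hχ : ∀ a, a - algebraMap k A (χ a) ∈ maximalIdeal A)
    (hsq : ∀ a ∈ maximalIdeal A, ∀ b ∈ maximalIdeal A, a * b = 0) (lam : A →ₗ[k] k) (z : k)
    (hz : χ (algebraMap k A z) = z) :
    dualHom χ hχ hsq lam (algebraMap k A z) = algebraMap k (DualNumber k) z := by
  ext
  · rw [dualHom_fst, hz]; simp [TrivSqZeroExt.algebraMap_eq_inl]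
  · rw [dualHom_snd, hz, Algebra.algebraMap_eq_smul_one, map_smul, smul_eq_mul, sub_self]
    simp [TrivSqZeroExt.algebraMap_eq_inl]

end DualHom

/-- Levels containing the square of the maximal ideal and the maximal ideal of `O` have bounded
index. -/
theorem exists_natCard_quotient_le {O : Type} [CommRing O] [IsLocalRing O]
    [Finite (ResidueField O)] {ρbar : ResidualGaloisRep (ResidueField O)}
    (bbar : Basis (Fin 2) (ResidueField O) ρbar.V) {x y : Γ →₀ O}
    (hp : IsNormPair x y (residualMatrix ρbar bbar))
    {D : ∀ ⦃A : Type⦄ [CommRing A] [IsLocalRing A] [Algebra O A], GaloisRepAdic A → Prop}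
    (hD : IsDeformationCondition O D) (hfin : TangentFinite O ρbar D) :
    ∃ N : ℕ, ∀ I : Ideal (FrameRing O), IsLevel (residualMatrix ρbar bbar) x y D I →
      frameMax (residualMatrix ρbar bbar) ^ 2 ≤ I →
      (∀ c : O, c ∈ maximalIdeal O → MvPolynomial.C c ∈ I) →
      Nat.card (FrameRing O ⧸ I) ≤ N := by
  let k := ResidueField O
  let algO : Algebra O (DualNumber k) :=
    ((algebraMap k (DualNumber k)).comp (algebraMap O k)).toAlgebra
  let algk : Algebra k (ResidueField (DualNumber k)) :=
    ((IsLocalRing.residue (DualNumber k)).comp (algebraMap k (DualNumber k))).toAlgebra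
  have : Finite (DualNumber k) := inferInstanceAs (Finite (k × k))
  have halg : ∀ c : O, algebraMap O (DualNumber k) c = TrivSqZeroExt.inl (residue O c) :=
    fun c => rfl
  have hunit : ∀ d : DualNumber k, IsUnit d ↔ IsUnit (TrivSqZeroExt.fst d) :=
    fun d => TrivSqZeroExt.isUnit_iff_isUnit_fst
  have hloc : IsLocalHom (algebraMap O (DualNumber k)) := ⟨fun c hc => by
    rw [hunit, halg, TrivSqZeroExt.fst_inl] at hc
    exact isUnit_of_map_unit (residue O) c hc⟩
  have hsurjD : Function.Surjective (residue (DualNumber k) ∘ algebraMap O (DualNumber k)) := by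
    intro z
    obtain ⟨d, rfl⟩ := residue_surjective z
    obtain ⟨c, hc⟩ := residue_surjective (TrivSqZeroExt.fst d)
    refine ⟨c, ?_⟩
    rw [Function.comp_apply, ← sub_eq_zero, ← map_sub, residue_eq_zero_iff,
      IsLocalRing.mem_maximalIdeal, mem_nonunits_iff, hunit, halg, TrivSqZeroExt.fst_sub,
      TrivSqZeroExt.fst_inl, hc, sub_self]
    exact not_isUnit_zero
  have htest : IsArtinianTestAlgebra O (DualNumber k) := ⟨hloc, hsurjD, inferInstance⟩
  have hψ : ResidueField.map (algebraMap O (DualNumber k)) =
      algebraMap k (ResidueField (DualNumber k)) := RingHom.ext fun z => by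
    obtain ⟨c, rfl⟩ := residue_surjective z
    rfl
  unfold TangentFinite at hfin
  have := hfin
  refine ⟨(fun {α : Type _} (_ : Finite α) => Nat.card (α × k)) hfin, fun I hI hI2 hIO => ?_⟩
  obtain ⟨A, _, _, _, r, hr, hs, rfl⟩ := hI
  have := hr.finite
  have := hr.test.isLocalHom
  rw [Nat.card_congr (Ideal.quotientKerAlgEquivOfSurjective hs).toEquiv]
  -- the maximal ideal has square zero
  have hsq : ∀ a ∈ maximalIdeal A, ∀ b ∈ maximalIdeal A, a * b = 0 := by
    intro a ha b hb
    obtain ⟨p, rfl⟩ := hs a
    obtain ⟨q, rfl⟩ := hs b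
    rw [← map_mul]
    refine RingHom.mem_ker.mp (hI2 ?_)
    rw [pow_two]
    exact Ideal.mul_mem_mul ((hr.frameHom_mem_iff p).mp ha) ((hr.frameHom_mem_iff q).mp hb)
  -- `A` is an algebra over the residue field
  have hzero : ∀ c : O, c ∈ maximalIdeal O → algebraMap O A c = 0 := fun c hc => by
    have h := RingHom.mem_ker.mp (hIO c hc)
    rwa [show MvPolynomial.C c = algebraMap O (FrameRing O) c from rfl, AlgHom.commutes] at h
  let j : k →+* A := Ideal.Quotient.lift (maximalIdeal O) (algebraMap O A) hzero
  let algA : Algebra k A := j.toAlgebra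
  have hj : ∀ c : O, algebraMap k A (residue O c) = algebraMap O A c := fun c => rfl
  let e := RingEquiv.ofBijective _ (residueField_map_bijective (𝒪 := O) hr.test.residue_surjective)
  let χ : A →+* k := e.symm.toRingHom.comp (residue A)
  have hχj : ∀ c : O, χ (algebraMap O A c) = residue O c := fun c =>
    e.symm_apply_eq.mpr (ResidueField.map_residue _ c).symm
  have hχ : ∀ a, a - algebraMap k A (χ a) ∈ maximalIdeal A := by
    intro a
    obtain ⟨c, hc⟩ := residue_surjective (χ a)
    rw [← hc, hj, ← residue_eq_zero_iff, map_sub, sub_eq_zero]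
    have h := congrArg e hc
    simp only [χ, RingHom.comp_apply, RingEquiv.toRingHom_eq_coe, RingHom.coe_coe,
      RingEquiv.apply_symm_apply] at h
    exact h.symm.trans (ResidueField.map_residue _ c)
  let φ : Module.Dual k A → (A →ₐ[O] DualNumber k) := fun lam =>
    { dualHom χ hχ hsq lam with
      commutes' := fun c => by
        show dualHom χ hχ hsq lam (algebraMap O A c) = _
        rw [← hj, dualHom_algebraMap χ hχ hsq lam _ (by rw [hj, hχj])]
        rfl }
  have hφloc : ∀ lam, IsLocalHom (φ lam : A →+* DualNumber k) := fun lam => ⟨fun a ha => by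
    have h : IsUnit (χ a) := dualHom_fst χ hχ hsq lam a ▸ (hunit _).mp ha
    exact isUnit_of_map_unit (residue A) a (by
      simpa [χ] using h.map e)⟩
  have hpt := fun lam => hr.map hD (φ lam) (hφloc lam) htest
  have hlift : ∀ lam, IsLift (residualMatrix ρbar bbar)
      (mapRep (φ lam : A →+* DualNumber k) r) :=
    fun lam => (isLift_iff_forall_sub_mem _).mpr (hpt lam).lift
  have hres : ∀ lam, (repOf (mapRep (φ lam : A →+* DualNumber k) r)
      (IsCont.of_factors _ (hpt lam).factors)).residual.IsEquiv
        (ρbar.baseChange (ResidueField (DualNumber k))) := by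
    intro lam
    refine residual_isEquiv_of_map_eq ρbar bbar _ (stdBasis _ _)
      (algebraMap k (ResidueField (DualNumber k))) (MonoidHom.ext fun σ => ?_)
    rw [matOf_repOf]
    refine (hlift lam σ).trans ?_
    rw [hψ]
    rfl
  have : Finite A := hr.finite
  have : Module.Finite k A := Module.Finite.of_finite
  rw [Nat.card_congr (Module.Free.chooseBasis k A).toDualEquiv.toEquiv]
  refine Nat.card_le_card_of_injective (fun lam : Module.Dual k A =>
    (Quotient.mk _ ⟨repOf (mapRep (φ lam : A →+* DualNumber k) r)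
      (IsCont.of_factors _ (hpt lam).factors), (hpt lam).isType, hres lam⟩, lam 1)) ?_
  intro lam mu h
  rw [Prod.mk.injEq] at h
  obtain ⟨h1, h2⟩ := h
  have heq : (repOf _ (IsCont.of_factors _ (hpt lam).factors)).IsEquiv
      (repOf _ (IsCont.of_factors _ (hpt mu).factors)) := Quotient.exact h1
  obtain ⟨u, hu⟩ := exists_conj_of_isEquiv heq (stdBasis _ _) (stdBasis _ _)
  simp only [matOf_repOf] at hu
  have hrep := IsNormalised.eq_of_conj hp (hlift lam) (hlift mu) (hpt lam).normal (hpt mu).normal hu
  have hφ := mapRep_eq_of_comp_eq hs hrep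
  refine LinearMap.ext fun a => ?_
  have h3 := congrArg TrivSqZeroExt.snd (AlgHom.congr_fun hφ a)
  change TrivSqZeroExt.snd (dualHom χ hχ hsq lam a) =
    TrivSqZeroExt.snd (dualHom χ hχ hsq mu a) at h3
  rw [dualHom_snd, dualHom_snd, h2] at h3
  exact sub_left_injective h3

end Fermat.Agent.Deformation
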