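import Fermat.Prelude.Def_GaloisRep_DeformationRingData
import Fermat.Agent.Deformation.Levels
import Fermat.Agent.Deformation.Tower

/-!
The universal deformation ring: limit of the least levels, its representation and universality.
-/

set_option autoImplicit false

noncomputable section

open IsLocalRing Module GaloisRep

namespace Fermat.Agent.Deformation

/-- Conjugation preserves adic continuity. -/
theorem IsCont.conjRep {A : Type} [CommRing A] [IsLocalRing A] {r : Γ →* Mat A} (hr : IsCont r)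
    (u : (Mat A)ˣ) : IsCont (Deformation.conjRep u r) := by
  intro n
  obtain ⟨L, hL, h1⟩ := hr n
  refine ⟨L, hL, fun σ hσ i j => ?_⟩
  have e : Deformation.conjRep u r σ - 1 = (u : Mat A) * (r σ - 1) * ((u⁻¹ : (Mat A)ˣ) : Mat A) := by
    rw [conjRep_apply, mul_sub, sub_mul, mul_one, Units.mul_inv]
  rw [e, Matrix.mul_apply]
  refine Ideal.sum_mem _ fun a _ => Ideal.mul_mem_right _ _ ?_
  rw [Matrix.mul_apply]
  exact Ideal.sum_mem _ fun b _ => Ideal.mul_mem_left _ _ (h1 σ hσ b a)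

variable {𝒪 : Type} [CommRing 𝒪] [IsLocalRing 𝒪]
variable {rbar : Γ →* Mat (ResidueField 𝒪)} {x y : Γ →₀ 𝒪}
variable {𝒟 : ∀ ⦃A : Type⦄ [CommRing A] [IsLocalRing A] [Algebra 𝒪 A], GaloisRepAdic A → Prop}

/-- The tower of the least levels. -/
theorem exists_tower [IsNoetherianRing 𝒪] [Finite (ResidueField 𝒪)]
    (h𝒟 : IsDeformationCondition 𝒪 𝒟) (hbase : IsPoint rbar x y 𝒟 (ResidueField 𝒪) rbar)
    (htan : ∃ N : ℕ, ∀ I, IsLevel rbar x y 𝒟 I → frameMax rbar ^ 2 ≤ I →
      (∀ c ∈ maximalIdeal 𝒪, MvPolynomial.C c ∈ I) → Nat.card (FrameRing 𝒪 ⧸ I) ≤ N) :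
    ∃ (ι : Type) (_ : Finite ι)
      (T : Tower ι 𝒪 fun n => FrameRing 𝒪 ⧸ levelIdeal rbar x y 𝒟 n),
      (∀ n, T.trans n = Ideal.Quotient.factorₐ 𝒪 (levelIdeal_antitone (Nat.le_succ n))) ∧
      ∀ n, n ≠ 0 → IsLevel rbar x y 𝒟 (levelIdeal rbar x y 𝒟 n) := by
  obtain ⟨ι, _, g, hg, hgen⟩ := exists_generators h𝒟 hbase htan
  have hlevel : ∀ n, n ≠ 0 → IsLevel rbar x y 𝒟 (levelIdeal rbar x y 𝒟 n) :=
    fun n hn => isLevel_levelIdeal hg hgen h𝒟 hbase hn
  let v : ∀ n, ι → FrameRing 𝒪 ⧸ levelIdeal rbar x y 𝒟 n := fun n i => Ideal.Quotient.mk _ (g i)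
  have hspan : ∀ n, Ideal.span (Set.range (v n)) ^ n = ⊥ := by
    intro n
    have hle : Ideal.span (Set.range (v n)) ≤
        (frameMax rbar).map (Ideal.Quotient.mk (levelIdeal rbar x y 𝒟 n)) := by
      rw [Ideal.span_le]
      rintro _ ⟨i, rfl⟩
      exact Ideal.mem_map_of_mem _ (hg i)
    refine le_bot_iff.mp ((Ideal.pow_right_mono hle n).trans ?_)
    rw [← Ideal.map_pow, le_bot_iff, Ideal.map_eq_bot_iff_le_ker, Ideal.mk_ker]
    exact pow_le_levelIdeal n
  let f : ∀ n, MvPowerSeries ι 𝒪 →ₐ[𝒪] FrameRing 𝒪 ⧸ levelIdeal rbar x y 𝒟 n :=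
    fun n => evalTrunc (v n) n (hspan n)
  have hfX : ∀ n i, f n (MvPowerSeries.X i) = v n i := fun n i => evalTrunc_X _ _ _ _
  have hcomp : ∀ n, MvPolynomial.aeval (R := 𝒪) (v n) =
      (Ideal.Quotient.mkₐ 𝒪 (levelIdeal rbar x y 𝒟 n)).comp (MvPolynomial.aeval g) := fun n =>
    MvPolynomial.algHom_ext fun i => by simp [v]
  have hsurj : ∀ n, Function.Surjective (f n) := by
    intro n z
    rcases eq_or_ne n 0 with rfl | hn
    · have : Subsingleton (FrameRing 𝒪 ⧸ levelIdeal rbar x y 𝒟 0) :=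
        Ideal.Quotient.subsingleton_iff.mpr levelIdeal_zero
      exact ⟨0, Subsingleton.elim _ _⟩
    · obtain ⟨b, hb⟩ := aeval_mk_surjective hg hgen (hlevel n hn) z
      refine ⟨(b : MvPowerSeries ι 𝒪), ?_⟩
      show evalTrunc (v n) n (hspan n) (b : MvPowerSeries ι 𝒪) = z
      rw [evalTrunc_coe, hcomp]
      exact hb
  let tr : ∀ n, (FrameRing 𝒪 ⧸ levelIdeal rbar x y 𝒟 (n + 1)) →ₐ[𝒪]
      FrameRing 𝒪 ⧸ levelIdeal rbar x y 𝒟 n :=
    fun n => Ideal.Quotient.factorₐ 𝒪 (levelIdeal_antitone (Nat.le_succ n))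
  have htr : ∀ n p, tr n (Ideal.Quotient.mk _ p) = Ideal.Quotient.mk _ p := fun n p => rfl
  have hker : ∀ n, varsIdeal ι 𝒪 ^ n ≤ RingHom.ker (f n) :=
    fun n => evalTrunc_pow_le_ker _ _ _
  have htc : ∀ n, (tr n).comp (f (n + 1)) = f n := by
    intro n
    refine algHom_ext_of_pow_le_ker n ?_ (hker n) fun i => ?_
    · intro s hs
      have h1 := Ideal.mem_map_of_mem ((tr n).comp (f (n + 1))) hs
      rw [map_varsIdeal_pow] at h1
      have e : (fun i => (tr n).comp (f (n + 1)) (MvPowerSeries.X i)) = v n := funext fun i => by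
        rw [AlgHom.comp_apply, hfX, htr]
      rw [e, hspan n] at h1
      exact h1
    · rw [AlgHom.comp_apply, hfX, hfX, htr]
  refine ⟨ι, inferInstance,
    { f := f
      trans := tr
      f_surjective := hsurj
      pow_le_ker := hker
      trans_comp := htc
      ker_trans := ?_
      isMaximal := ?_ }, fun n => rfl, hlevel⟩
  · intro n z hz
    obtain ⟨p, rfl⟩ := Ideal.Quotient.mk_surjective z
    rw [RingHom.mem_ker, htr, Ideal.Quotient.eq_zero_iff_mem] at hz
    obtain ⟨i, hi, q, hq, rfl⟩ :=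
      Submodule.mem_sup.mp (levelIdeal_le_succ_sup hg hgen h𝒟 hbase n hz)
    rw [map_add, Ideal.Quotient.eq_zero_iff_mem.mpr hi, zero_add]
    have hM : (frameMax rbar).map (Ideal.Quotient.mk (levelIdeal rbar x y 𝒟 (n + 1))) ≤
        Ideal.span (Set.range fun i => f (n + 1) (MvPowerSeries.X i)) := by
      refine (Ideal.map_mono (hgen _ (hlevel _ (Nat.succ_ne_zero n)))).trans ?_
      rw [Ideal.map_sup, Ideal.map_span, Ideal.map_quotient_self, sup_bot_eq, ← Set.range_comp]
      refine le_of_eq (congrArg _ (congrArg Set.range (funext fun i => ?_)))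
      exact (hfX (n + 1) i).symm
    rw [map_varsIdeal_pow]
    refine Ideal.pow_right_mono hM n ?_
    rw [← Ideal.map_pow]
    exact Ideal.mem_map_of_mem _ hq
  · have hmax : (levelIdeal rbar x y 𝒟 1).IsMaximal := by
      rw [levelIdeal_one hbase]; exact isMaximal_frameMax
    let : Field (FrameRing 𝒪 ⧸ levelIdeal rbar x y 𝒟 1) := Ideal.Quotient.field _
    exact RingHom.ker_isMaximal_of_surjective (f 1) (hsurj 1)

/-- Universal deformation data from a bound on the tangent levels. -/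
theorem nonempty_deformationRingData_of_bound {𝒪 : Type} [CommRing 𝒪] [IsDomain 𝒪]
    [IsDiscreteValuationRing 𝒪] [IsAdicComplete (maximalIdeal 𝒪) 𝒪] [Finite (ResidueField 𝒪)]
    {ρbar : ResidualGaloisRep (ResidueField 𝒪)}
    {𝒟 : ∀ ⦃A : Type⦄ [CommRing A] [IsLocalRing A] [Algebra 𝒪 A], GaloisRepAdic A → Prop}
    (habs : ρbar.IsAbsolutelyIrreducible) (h𝒟 : IsDeformationCondition 𝒪 𝒟)
    (hbar : 𝒟 (GaloisRepAdic.ofResidualGaloisRep ρbar))
    (bbar : Basis (Fin 2) (ResidueField 𝒪) ρbar.V) {x y : Γ →₀ 𝒪}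
    (hp : IsNormPair x y (residualMatrix ρbar bbar))
    (htan : ∃ N : ℕ, ∀ I, IsLevel (residualMatrix ρbar bbar) x y 𝒟 I →
      frameMax (residualMatrix ρbar bbar) ^ 2 ≤ I →
      (∀ c ∈ maximalIdeal 𝒪, MvPolynomial.C c ∈ I) → Nat.card (FrameRing 𝒪 ⧸ I) ≤ N) :
    Nonempty (DeformationRingData 𝒪 ρbar 𝒟) := by
  set rbar := residualMatrix ρbar bbar with hrbar
  have hbase := isPoint_residualMatrix bbar hp h𝒟 hbar
  obtain ⟨ι, _, T, htrans, hlevel⟩ := exists_tower h𝒟 hbase htan
  have hmatbar : matOf ρbar.ρ bbar = rbar := rfl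
  -- the universal representation
  let q : ∀ n, FrameRing 𝒪 →ₐ[𝒪] FrameRing 𝒪 ⧸ levelIdeal rbar x y 𝒟 n :=
    fun n => Ideal.Quotient.mkₐ 𝒪 _
  have hq : ∀ n p, T.trans n (q (n + 1) p) = q n p := fun n p => by rw [htrans]; rfl
  choose entry hentry huniq using fun σ i j =>
    T.existsUnique_π (fun n => q n (MvPolynomial.X (σ, i, j))) (fun n => hq n _)
  let e : Γ → Mat T.R := fun σ => Matrix.of (entry σ)
  have hπe : ∀ n σ, (e σ).map (T.π n) = Matrix.of fun i j => q n (MvPolynomial.X (σ, i, j)) :=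
    fun n σ => Matrix.ext fun i j => hentry σ i j n
  have hpoint : ∀ n, n ≠ 0 → ∃ (_ : IsLocalRing (FrameRing 𝒪 ⧸ levelIdeal rbar x y 𝒟 n))
      (r : Γ →* Mat (FrameRing 𝒪 ⧸ levelIdeal rbar x y 𝒟 n)),
      IsPoint rbar x y 𝒟 _ r ∧ frameHom (𝒪 := 𝒪) r = q n := fun n hn =>
    (hlevel n hn).exists_point_quotient h𝒟 le_rfl (hlevel n hn).le_frameMax
  have hzero : ∀ a b : FrameRing 𝒪 ⧸ levelIdeal rbar x y 𝒟 0, a = b := fun a b =>
    (Ideal.Quotient.subsingleton_iff.mpr levelIdeal_zero).elim a b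
  have hmat : ∀ {n} (hn : n ≠ 0), ∃ (_ : IsLocalRing (FrameRing 𝒪 ⧸ levelIdeal rbar x y 𝒟 n))
      (r : Γ →* Mat (FrameRing 𝒪 ⧸ levelIdeal rbar x y 𝒟 n)),
      IsPoint rbar x y 𝒟 _ r ∧ ∀ σ, (e σ).map (T.π n) = r σ := by
    intro n hn
    obtain ⟨hloc, r, hr, he⟩ := hpoint n hn
    refine ⟨hloc, r, hr, fun σ => ?_⟩
    rw [hπe]
    exact Matrix.ext fun i j => by rw [Matrix.of_apply, ← he, frameHom_X]
  let rU : Γ →* Mat T.R :=
    { toFun := e
      map_one' := Matrix.ext fun i j => T.eq_of_forall_π_eq fun n => by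
        rcases eq_or_ne n 0 with rfl | hn
        · exact hzero _ _
        · obtain ⟨_, r, -, he⟩ := hmat hn
          have := congrFun (congrFun (he 1) i) j
          rw [Matrix.map_apply, map_one] at this
          exact this.trans (congrFun (congrFun (Matrix.map_one (T.π n) (map_zero _) (map_one _)) i) j).symm
      map_mul' := fun σ τ => Matrix.ext fun i j => T.eq_of_forall_π_eq fun n => by
        rcases eq_or_ne n 0 with rfl | hn
        · exact hzero _ _
        · obtain ⟨_, r, -, he⟩ := hmat hn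
          have := congrFun (congrFun (he (σ * τ)) i) j
          rw [Matrix.map_apply, map_mul, ← he σ, ← he τ, ← Matrix.map_mul, Matrix.map_apply] at this
          exact this }
  have hπr : ∀ {n} (hn : n ≠ 0), ∃ (_ : IsLocalRing (FrameRing 𝒪 ⧸ levelIdeal rbar x y 𝒟 n))
      (r : Γ →* Mat (FrameRing 𝒪 ⧸ levelIdeal rbar x y 𝒟 n)),
      IsPoint rbar x y 𝒟 _ r ∧ mapRep (T.π n : T.R →+* _) rU = r := fun hn => by
    obtain ⟨hloc, r, hr, he⟩ := hmat hn
    exact ⟨hloc, r, hr, MonoidHom.ext he⟩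
  have hπframe : ∀ n p, T.π n (frameHom (𝒪 := 𝒪) rU p) = q n p := fun n => by
    have : (T.π n).comp (frameHom (𝒪 := 𝒪) rU) = q n :=
      MvPolynomial.algHom_ext fun v => by
        rw [AlgHom.comp_apply, show v = (v.1, v.2.1, v.2.2) from rfl, frameHom_X]
        exact hentry v.1 v.2.1 v.2.2 n
    exact fun p => DFunLike.congr_fun this p
  have hcont : IsCont rU := by
    intro n
    rcases eq_or_ne n 0 with rfl | hn
    · exact ⟨⊥, inferInstance, fun σ _ i j => by simp⟩
    · obtain ⟨_, r, hr, he⟩ := hπr hn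
      obtain ⟨L, hL, h1⟩ := hr.factors
      refine ⟨L, hL, fun σ hσ i j => ?_⟩
      rw [← T.ker_π_eq_maximalIdeal_pow, RingHom.mem_ker, Matrix.sub_apply, map_sub, sub_eq_zero]
      have := congrFun (congrFun (DFunLike.congr_fun he σ) i) j
      rw [h1 σ hσ, mapRep_apply, Matrix.map_apply] at this
      exact this.trans (congrFun (congrFun (Matrix.map_one (T.π n) (map_zero _) (map_one _)) i) j).symm
  have hliftU : IsLift rbar rU := by
    rw [isLift_iff_forall_sub_mem]
    intro c σ i j hc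
    rw [← pow_one (maximalIdeal T.R), ← T.ker_π_eq_maximalIdeal_pow, RingHom.mem_ker, map_sub,
      AlgHom.commutes]
    have h1 := hπframe 1 (MvPolynomial.X (σ, i, j))
    rw [frameHom_X] at h1
    rw [h1, ← AlgHom.commutes (q 1), ← map_sub]
    refine Ideal.Quotient.eq_zero_iff_mem.mpr ?_
    rw [levelIdeal_one hbase, frameMax, RingHom.mem_ker, map_sub, frameHom_X, AlgHom.commutes]
    exact sub_eq_zero.mpr hc.symm
  have hnormU : IsNormalised x y rU := by
    constructor <;> refine T.eq_of_forall_π_eq fun n => ?_ <;>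
      rcases eq_or_ne n 0 with rfl | hn
    all_goals first
      | exact hzero _ _
      | obtain ⟨_, r, hr, he⟩ := hπr hn
        have e1 := comb_mapRep x (T.π n) rU
        have e2 := comb_mapRep y (T.π n) rU
        rw [he] at e1 e2
        first
          | (rw [map_zero, ← hr.normal.x01, e1]; rfl)
          | (rw [map_zero, ← hr.normal.x10, e1]; rfl)
          | (rw [map_one, ← hr.normal.y01, e2]; rfl)
  let ρU : GaloisRepAdic T.R := repOf rU hcont
  have hres : ρU.residual.IsEquiv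
      (ρbar.baseChangeAlong (ResidueField.map (algebraMap 𝒪 T.R))) :=
    residual_isEquiv_of_map_eq ρbar bbar ρU (stdBasis rU hcont) _
      (by rw [matOf_repOf, hmatbar]; exact MonoidHom.ext hliftU)
  have htype : 𝒟 ρU := by
    refine (h𝒟.iff_forall_surjective inferInstance T.residue_surjective ρU).mpr ?_
    intro B _ _ _ hB φ hφ hφs
    have := hB.isArtinian
    obtain ⟨n, hn⟩ := exists_maximalIdeal_pow_eq_bot (A := B)
    obtain ⟨_, r, hr, he⟩ := hπr (Nat.succ_ne_zero n)
    have hker : RingHom.ker (T.π (n + 1)) ≤ RingHom.ker φ := by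
      rw [T.ker_π_eq_maximalIdeal_pow]
      intro a ha
      have h1 : φ a ∈ maximalIdeal B ^ (n + 1) := by
        refine (Ideal.map_pow (φ : T.R →+* B) _ _).le.trans
          (Ideal.pow_right_mono ?_ _) (Ideal.mem_map_of_mem _ ha)
        exact Ideal.map_le_iff_le_comap.mpr fun b hb => map_nonunit (φ : T.R →+* B) b hb
      have h2 := Ideal.pow_le_pow_right (Nat.le_succ n) h1
      rw [hn] at h2
      exact h2
    let ψ : (FrameRing 𝒪 ⧸ levelIdeal rbar x y 𝒟 (n + 1)) →ₐ[𝒪] B :=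
      (Ideal.Quotient.liftₐ (RingHom.ker (T.π (n + 1))) φ fun a ha => hker ha).comp
        (Ideal.quotientKerAlgEquivOfSurjective (T.π_surjective (n + 1))).symm.toAlgHom
    have hψ : ∀ a, ψ (T.π (n + 1) a) = φ a := by
      intro a
      simp only [ψ, AlgHom.comp_apply]
      erw [(Ideal.quotientKerAlgEquivOfSurjective (T.π_surjective (n + 1))).symm_apply_eq.mpr
        (Ideal.quotientKerAlgEquivOfSurjective_mk (T.π_surjective (n + 1)) a).symm]
      rfl
    have hψs : Function.Surjective ψ := fun b => by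
      obtain ⟨a, rfl⟩ := hφs b
      exact ⟨_, hψ a⟩
    have hψl : IsLocalHom ψ.toRingHom := IsLocalHom.of_surjective ψ.toRingHom hψs
    have := hr.finite
    have := Finite.of_surjective _ hψs
    have hm := hr.map h𝒟 ψ hψl hB
    refine h𝒟.of_isEquiv hB ?_ hm.isType
    refine (repOf_baseChangeAlong_isEquiv hcont _ hφ ?_ _).elim fun e => ⟨e.symm⟩
    rw [← he, mapRep_mapRep]
    exact congrArg (mapRep · rU) (RingHom.ext fun a => (hψ a).symm)
  refine ⟨{
    R := T.R
    residue_surjective := T.residue_surjective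
    absIrr := habs
    ρ := ρU
    isOfType := htype
    residual_isEquiv := hres
    universal := ?_ }⟩
  intro A _ _ _ _ _ _ hA ρA hρA hρAres
  -- a normalised matrix form of `ρA`
  obtain ⟨b, hb⟩ := exists_lift_basis ρbar bbar ρA _ hρAres
  rw [hmatbar] at hb
  have hlift0 : IsLift rbar (matOf ρA.ρ b) := fun σ => DFunLike.congr_fun hb σ
  obtain ⟨u, hlA, hnA⟩ := exists_normalised hp hlift0
  set rA := conjRep u (matOf ρA.ρ b) with hrA
  have hcA : IsCont rA := (isCont_matOf ρA b).conjRep u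
  have heqA : ρA.IsEquiv (repOf rA hcA) := by
    obtain ⟨e1⟩ := isEquiv_repOf ρA b rfl (isCont_matOf ρA b)
    obtain ⟨e2⟩ := isEquiv_repOf_of_conj (isCont_matOf ρA b) hcA u fun σ => by
      rw [hrA, conjRep_apply, mul_assoc, Units.inv_mul, mul_one]
    exact ⟨e1.trans e2⟩
  have hfinRes : Finite (A ⧸ maximalIdeal A) :=
    Finite.of_surjective (ResidueField.map (algebraMap 𝒪 A)) (residueField_map_bijective hA).2
  have hkerA : ∀ n, levelIdeal rbar x y 𝒟 n ≤
      RingHom.ker ((Ideal.Quotient.mkₐ 𝒪 (maximalIdeal A ^ n)).comp (frameHom rA)) := by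
    intro n
    rcases eq_or_ne n 0 with rfl | hn
    · intro p _
      rw [RingHom.mem_ker]
      refine Ideal.Quotient.eq_zero_iff_mem.mpr ?_
      simp
    let An := A ⧸ maximalIdeal A ^ n
    have : Finite An := Ideal.finite_quotient_pow (IsNoetherian.noetherian _) n
    have hne : maximalIdeal A ^ n ≠ ⊤ := fun h =>
      (maximalIdeal.isMaximal A).ne_top (top_le_iff.mp (h ▸ Ideal.pow_le_self hn))
    have : Nontrivial An := Ideal.Quotient.nontrivial_iff.mpr hne
    let qA : A →ₐ[𝒪] An := Ideal.Quotient.mkₐ 𝒪 _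
    have hqs : Function.Surjective qA := Ideal.Quotient.mk_surjective
    have : IsLocalRing An := IsLocalRing.of_surjective' (qA : A →+* An) hqs
    have hql : IsLocalHom (qA : A →+* An) := IsLocalHom.of_surjective _ hqs
    have htest : IsArtinianTestAlgebra 𝒪 An := by
      refine ⟨⟨fun c hc => ?_⟩, fun z => ?_, inferInstance⟩
      · rw [← qA.commutes] at hc
        exact IsUnit.of_map (algebraMap 𝒪 A) c (IsUnit.of_map (qA : A →+* An) _ hc)
      · obtain ⟨a, rfl⟩ := residue_surjective z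
        obtain ⟨a, rfl⟩ := hqs a
        obtain ⟨c, hc⟩ := hA (residue A a)
        refine ⟨c, ?_⟩
        have := congrArg (ResidueField.map (qA : A →+* An)) hc
        simpa [ResidueField.map_residue] using this
    have hf : GaloisFactorsThroughFiniteLevel (mapRep (qA : A →+* An) rA) := by
      obtain ⟨L, hL, h1⟩ := hcA n
      refine ⟨L, hL, fun σ hσ => Matrix.ext fun i j => ?_⟩
      have := Ideal.Quotient.eq_zero_iff_mem.mpr (h1 σ hσ i j)
      rw [Matrix.sub_apply, map_sub, sub_eq_zero] at this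
      exact this.trans (congrFun (congrFun (Matrix.map_one qA (map_zero _) (map_one _)) i) j)
    have hpt : IsPoint rbar x y 𝒟 An (mapRep (qA : A →+* An) rA) :=
      { test := htest
        finite := inferInstance
        factors := hf
        lift := fun c σ i j hc => by
          have := map_nonunit (qA : A →+* An) _
            ((isLift_iff_forall_sub_mem rA).mp hlA c σ i j hc)
          simpa using this
        normal := hnA.map qA
        isType := by
          have h1 := (h𝒟.iff_forall_surjective inferInstance hA ρA).mp hρA htest qA hql hqs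
          obtain ⟨e1⟩ := heqA
          obtain ⟨e2⟩ := repOf_baseChangeAlong_isEquiv hcA (qA : A →+* An) hql rfl
            (IsCont.of_factors _ hf)
          exact h𝒟.of_isEquiv htest ⟨(e1.baseChangeAlong _ hql).trans e2⟩ h1 }
    have hcompA : qA.comp (frameHom rA) = frameHom (mapRep (qA : A →+* An) rA) := comp_frameHom _ _
    show _ ≤ RingHom.ker (qA.comp (frameHom rA))
    rw [hcompA]
    refine levelIdeal_le (hpt.isLevel_ker h𝒟) fun p hp => ?_
    have h1 : frameHom (mapRep (qA : A →+* An) rA) p ∈ maximalIdeal An ^ n := by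
      refine Ideal.pow_right_mono ?_ n (Ideal.le_comap_pow _ n
        (Ideal.pow_right_mono (show frameMax rbar ≤ (maximalIdeal An).comap (frameHom (𝒪 := 𝒪) (mapRep (qA : A →+* An) rA)) from fun a ha => Ideal.mem_comap.mpr ((hpt.frameHom_mem_iff a).mpr ha)) n hp))
      exact le_rfl
    have h2 : maximalIdeal An ^ n = ⊥ := by
      have hmap : maximalIdeal An ≤ (maximalIdeal A).map qA := fun z hz => by
        obtain ⟨a, rfl⟩ := hqs z
        exact Ideal.mem_map_of_mem _ fun ha => hz (ha.map _)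
      refine le_bot_iff.mp ((Ideal.pow_right_mono hmap n).trans ?_)
      rw [← Ideal.map_pow, le_bot_iff, Ideal.map_eq_bot_iff_le_ker]
      exact fun a ha => Ideal.Quotient.eq_zero_iff_mem.mpr ha
    rw [h2] at h1
    exact h1
  -- the classifying homomorphism
  let φn : ∀ n, T.R →ₐ[𝒪] A ⧸ maximalIdeal A ^ n := fun n =>
    (Ideal.Quotient.liftₐ (levelIdeal rbar x y 𝒟 n)
      ((Ideal.Quotient.mkₐ 𝒪 (maximalIdeal A ^ n)).comp (frameHom rA))
      fun a ha => RingHom.mem_ker.mp (hkerA n ha)).comp (T.π n)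
  have hφn : ∀ n r p, T.π n r = q n p →
      φn n r = Ideal.Quotient.mk (maximalIdeal A ^ n) (frameHom rA p) := by
    intro n r p h
    show _ = _
    simp only [φn, AlgHom.comp_apply, h]
    rfl
  have hdown : ∀ {m n}, m ≤ n → ∀ r p, T.π n r = q n p → T.π m r = q m p := by
    intro m n h r p hn
    induction h using Nat.decreasingInduction with
    | self => exact hn
    | of_succ j hj ih => rw [← T.trans_comp_π j, AlgHom.comp_apply, ih, hq]
  let φ : T.R →ₐ[𝒪] A := IsAdicComplete.liftAlgHom (maximalIdeal A) φn (fun {m n} hle => by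
    refine AlgHom.ext fun r => ?_
    obtain ⟨p, hp'⟩ := Ideal.Quotient.mk_surjective (T.π n r)
    have hp'' : T.π n r = q n p := hp'.symm
    rw [AlgHom.comp_apply, hφn n r p hp'', hφn m r p (hdown hle r p hp'')]
    rfl)
  have hφq : ∀ n r p, T.π n r = q n p → φ r - frameHom rA p ∈ maximalIdeal A ^ n := by
    intro n r p h
    rw [← Ideal.Quotient.mk_eq_mk_iff_sub_mem, ← hφn n r p h]
    exact IsAdicComplete.mk_liftAlgHom _ _ _ n r
  have hφl : IsLocalHom (φ : T.R →+* A) := by
    refine ⟨fun r hr => ?_⟩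
    by_contra hn
    have hm : T.π 1 r = q 1 0 := by
      rw [map_zero, ← RingHom.mem_ker, T.ker_π_eq_maximalIdeal_pow, pow_one]
      exact hn
    have := hφq 1 r 0 hm
    rw [map_zero, sub_zero, pow_one] at this
    exact this hr
  have hφU : mapRep (φ : T.R →+* A) rU = rA := by
    refine MonoidHom.ext fun σ => Matrix.ext fun i j => ?_
    rw [mapRep_apply, Matrix.map_apply]
    refine eq_of_sub_eq_zero (IsHausdorff.haus' (I := maximalIdeal A) _ fun n => ?_)
    rw [SModEq.zero, smul_eq_mul, Ideal.mul_top]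
    have := hφq n (rU σ i j) (MvPolynomial.X (σ, i, j)) (hentry σ i j n)
    rwa [frameHom_X] at this
  refine ⟨φ, ⟨hφl, ?_⟩, ?_⟩
  · obtain ⟨e1⟩ := repOf_baseChangeAlong_isEquiv hcont (φ : T.R →+* A) hφl hφU hcA
    obtain ⟨e2⟩ := heqA
    exact ⟨e1.trans e2.symm⟩
  rintro φ' ⟨hφ'l, hφ'⟩
  have hc' := hcont.mapRep (φ' : T.R →+* A) hφ'l
  obtain ⟨e1⟩ := repOf_baseChangeAlong_isEquiv hcont (φ' : T.R →+* A) hφ'l rfl hc'
  obtain ⟨e2⟩ := hφ'
  obtain ⟨e3⟩ := heqA
  obtain ⟨w, hw⟩ := exists_conj_of_isEquiv (ρ := repOf _ hc') (ρ' := repOf rA hcA)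
    ⟨(e1.symm.trans e2).trans e3⟩ (stdBasis _ hc') (stdBasis _ hcA)
  rw [matOf_repOf, matOf_repOf] at hw
  have hl' : IsLift rbar (mapRep (φ' : T.R →+* A) rU) := by
    rw [isLift_iff_forall_sub_mem]
    intro c σ i j hc
    have := map_nonunit (φ' : T.R →+* A) _
      ((isLift_iff_forall_sub_mem rU).mp hliftU c σ i j hc)
    simpa using this
  have heq : mapRep (φ' : T.R →+* A) rU = mapRep (φ : T.R →+* A) rU :=
    (IsNormalised.eq_of_conj hp hl' hlA (hnormU.map φ') hnA hw).trans hφU.symm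
  refine AlgHom.ext fun r => eq_of_sub_eq_zero
    (IsHausdorff.haus' (I := maximalIdeal A) _ fun n => ?_)
  rw [SModEq.zero, smul_eq_mul, Ideal.mul_top]
  obtain ⟨p, hp'⟩ := Ideal.Quotient.mk_surjective (T.π n r)
  have hr : r - frameHom rU p ∈ maximalIdeal T.R ^ n := by
    rw [← T.ker_π_eq_maximalIdeal_pow, RingHom.mem_ker, map_sub, hπframe, sub_eq_zero]
    exact hp'.symm
  have hmem : ∀ χ : T.R →ₐ[𝒪] A, IsLocalHom (χ : T.R →+* A) →
      χ r - frameHom (mapRep (χ : T.R →+* A) rU) p ∈ maximalIdeal A ^ n := by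
    intro χ hχ
    rw [← comp_frameHom, AlgHom.comp_apply, ← map_sub]
    refine (Ideal.map_pow (χ : T.R →+* A) _ _).le.trans (Ideal.pow_right_mono ?_ _)
      (Ideal.mem_map_of_mem _ hr)
    exact Ideal.map_le_iff_le_comap.mpr fun b hb => map_nonunit (χ : T.R →+* A) b hb
  have h1 := hmem φ' hφ'l
  have h2 := hmem φ hφl
  rw [heq] at h1
  simpa using Ideal.sub_mem _ h1 h2

end Fermat.Agent.Deformation
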